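import Mathlib

set_option autoImplicit false

/-!
# Two by two matrices: cyclic vectors, commutants, conjugacy
-/

namespace Fermat.Agent.LT.Tw

open Matrix

section

variable {F : Type*} [Field F]

/-- a nonscalar matrix -/
def NS (A : Matrix (Fin 2) (Fin 2) F) : Prop := ∀ a : F, A ≠ a • (1 : Matrix (Fin 2) (Fin 2) F)

/-- companion matrix of `X² - t X + d` -/
def cmp (t d : F) : Matrix (Fin 2) (Fin 2) F := !![0, -d; 1, t]

@[simp] theorem det_cmp (t d : F) : (cmp t d).det = d := by simp [cmp]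
@[simp] theorem trace_cmp (t d : F) : (cmp t d).trace = t := by simp [cmp, Matrix.trace_fin_two]

theorem ns_cmp (t d : F) : NS (cmp t d) := by
  intro a h
  have := congrFun (congrFun h 1) 0
  simp [cmp] at this

theorem ns_iff (A : Matrix (Fin 2) (Fin 2) F) :
    NS A ↔ (A 1 0 ≠ 0 ∨ A 0 1 ≠ 0 ∨ A 0 0 ≠ A 1 1) := by
  constructor
  · intro h
    by_contra hcon
    push Not at hcon
    obtain ⟨h1, h2, h3⟩ := hcon
    apply h (A 0 0)
    ext i j
    fin_cases i <;> fin_cases j <;> simp [h1, h2, h3]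
  · rintro h a rfl
    simp at h

theorem cayley (A : Matrix (Fin 2) (Fin 2) F) :
    A * A = A.trace • A - A.det • (1 : Matrix (Fin 2) (Fin 2) F) := by
  ext i j
  fin_cases i <;> fin_cases j <;>
    simp [Matrix.mul_apply, Fin.sum_univ_two, Matrix.trace_fin_two, Matrix.det_fin_two] <;> ring

/-- cyclic vectors exist -/
theorem exists_cyclic {A : Matrix (Fin 2) (Fin 2) F} (hA : NS A) :
    ∃ P : Matrix (Fin 2) (Fin 2) F, P.det ≠ 0 ∧ A * P = P * cmp A.trace A.det := by
  have key : ∀ x y : F, (!![x, A 0 0 * x + A 0 1 * y; y, A 1 0 * x + A 1 1 * y] :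
      Matrix (Fin 2) (Fin 2) F).det ≠ 0 →
      ∃ P : Matrix (Fin 2) (Fin 2) F, P.det ≠ 0 ∧ A * P = P * cmp A.trace A.det := by
    intro x y h
    refine ⟨_, h, ?_⟩
    ext i j
    fin_cases i <;> fin_cases j <;>
      simp [Matrix.mul_apply, Fin.sum_univ_two, Matrix.trace_fin_two, Matrix.det_fin_two, cmp] <;> ring
  rcases (ns_iff A).1 hA with h | h | h
  · exact key 1 0 (by simpa [Matrix.det_fin_two] using h)
  · exact key 0 1 (by simpa [Matrix.det_fin_two] using h)
  · by_cases h1 : A 1 0 = 0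
    · by_cases h2 : A 0 1 = 0
      · exact key 1 1 (by simpa [Matrix.det_fin_two, h1, h2, sub_eq_zero] using fun h3 => h h3.symm)
      · exact key 0 1 (by simpa [Matrix.det_fin_two] using h2)
    · exact key 1 0 (by simpa [Matrix.det_fin_two] using h1)

theorem commutant_aux {a b c d p q r s : F} (h1 : b * r = q * c) (h2 : q * (a - d) = b * (p - s))
    (h3 : c * (p - s) = r * (a - d)) (h : c ≠ 0 ∨ b ≠ 0 ∨ a ≠ d) :
    ∃ x y : F, p = x + y * a ∧ q = y * b ∧ r = y * c ∧ s = x + y * d := by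
  rcases h with h | h | h
  · refine ⟨p - r / c * a, r / c, by ring, ?_, ?_, ?_⟩
    · field_simp; linear_combination -h1
    · field_simp
    · field_simp; linear_combination -h3
  · refine ⟨p - q / b * a, q / b, by ring, ?_, ?_, ?_⟩
    · field_simp
    · field_simp; linear_combination h1
    · field_simp; linear_combination h2
  · have h' : a - d ≠ 0 := sub_ne_zero.2 h
    refine ⟨p - (p - s) / (a - d) * a, (p - s) / (a - d), by ring, ?_, ?_, ?_⟩
    · field_simp; linear_combination h2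
    · field_simp; linear_combination -h3
    · field_simp; ring

/-- the commutant of a nonscalar matrix -/
theorem commutant {A B : Matrix (Fin 2) (Fin 2) F} (hA : NS A) (h : A * B = B * A) :
    ∃ x y : F, B = x • (1 : Matrix (Fin 2) (Fin 2) F) + y • A := by
  have e00 := congrFun (congrFun h 0) 0
  have e01 := congrFun (congrFun h 0) 1
  have e10 := congrFun (congrFun h 1) 0
  have e11 := congrFun (congrFun h 1) 1
  simp only [Matrix.mul_apply, Fin.sum_univ_two] at e00 e01 e10 e11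
  obtain ⟨x, y, h1, h2, h3, h4⟩ := commutant_aux (a := A 0 0) (b := A 0 1) (c := A 1 0)
    (d := A 1 1) (p := B 0 0) (q := B 0 1) (r := B 1 0) (s := B 1 1)
    (by linear_combination e00) (by linear_combination e01) (by linear_combination e10)
    ((ns_iff A).1 hA)
  refine ⟨x, y, ?_⟩
  ext i j
  fin_cases i <;> fin_cases j <;> simp [h1, h2, h3, h4]

theorem mul_comm_of_comm {A B C : Matrix (Fin 2) (Fin 2) F} (hA : NS A) (h : A * B = B * A)
    (h' : A * C = C * A) : B * C = C * B := by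
  obtain ⟨x, y, rfl⟩ := commutant hA h
  rw [add_mul, mul_add, smul_mul_assoc, mul_smul_comm, one_mul, mul_one, smul_mul_assoc,
    mul_smul_comm, h']

theorem det_lin (A : Matrix (Fin 2) (Fin 2) F) (x y : F) :
    (x • (1 : Matrix (Fin 2) (Fin 2) F) + y • A).det = x * x + x * y * A.trace + y * y * A.det := by
  simp [Matrix.trace_fin_two, Matrix.det_fin_two]; ring

theorem trace_lin (A : Matrix (Fin 2) (Fin 2) F) (x y : F) :
    (x • (1 : Matrix (Fin 2) (Fin 2) F) + y • A).trace = 2 * x + y * A.trace := by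
  simp; ring

/-- elliptic: the characteristic polynomial is irreducible -/
def Ell (A : Matrix (Fin 2) (Fin 2) F) : Prop :=
  ∀ x y : F, x * x + x * y * A.trace + y * y * A.det = 0 → x = 0 ∧ y = 0

theorem Ell.ns {A : Matrix (Fin 2) (Fin 2) F} (h : Ell A) : NS A := by
  rintro a rfl
  have := h (-a) 1 (by simp [Matrix.trace_fin_two]; ring)
  exact one_ne_zero this.2

theorem Ell.det_ne {A : Matrix (Fin 2) (Fin 2) F} (h : Ell A) {x y : F}
    (hxy : x • (1 : Matrix (Fin 2) (Fin 2) F) + y • A ≠ 0) :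
    (x • (1 : Matrix (Fin 2) (Fin 2) F) + y • A).det ≠ 0 := by
  rw [det_lin]
  intro h0
  obtain ⟨rfl, rfl⟩ := h x y h0
  simp at hxy

/-- an elliptic matrix has no eigenvalue -/
theorem ell_iff (A : Matrix (Fin 2) (Fin 2) F) :
    Ell A ↔ ∀ x : F, x * x - A.trace * x + A.det ≠ 0 := by
  constructor
  · intro h x hx
    have := h (-x) 1 (by linear_combination hx)
    exact one_ne_zero this.2
  · intro h x y hxy
    by_cases hy : y = 0
    · subst hy
      simpa using hxy
    · exfalso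
      apply h (-x / y)
      field_simp
      linear_combination hxy

theorem ell_smul {A : Matrix (Fin 2) (Fin 2) F} (h : Ell A) {z : F} (hz : z ≠ 0) : Ell (z • A) := by
  intro x y hxy
  have := h x (y * z) (by
    rw [Matrix.trace_smul, Matrix.det_smul, Fintype.card_fin, smul_eq_mul] at hxy
    linear_combination hxy)
  exact ⟨this.1, (mul_eq_zero.1 this.2).resolve_right hz⟩

/-- nonscalar matrices with the same trace and determinant are conjugate -/
theorem exists_conj {A B : GL (Fin 2) F} (hA : NS (A : Matrix (Fin 2) (Fin 2) F))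
    (hB : NS (B : Matrix (Fin 2) (Fin 2) F))
    (ht : (A : Matrix (Fin 2) (Fin 2) F).trace = (B : Matrix (Fin 2) (Fin 2) F).trace)
    (hd : (A : Matrix (Fin 2) (Fin 2) F).det = (B : Matrix (Fin 2) (Fin 2) F).det) :
    ∃ h : GL (Fin 2) F, h * A * h⁻¹ = B := by
  obtain ⟨P, hP, h1⟩ := exists_cyclic hA
  obtain ⟨Q, hQ, h2⟩ := exists_cyclic hB
  let P' := GeneralLinearGroup.mkOfDetNeZero P hP
  let Q' := GeneralLinearGroup.mkOfDetNeZero Q hQ
  have hdet : (cmp (A : Matrix (Fin 2) (Fin 2) F).trace (A : Matrix (Fin 2) (Fin 2) F).det).det ≠ 0 := by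
    rw [det_cmp]
    exact ((Matrix.isUnit_iff_isUnit_det _).1 A.isUnit).ne_zero
  let C' := GeneralLinearGroup.mkOfDetNeZero _ hdet
  have e1 : A * P' = P' * C' := Units.ext h1
  have e2 : B * Q' = Q' * C' := Units.ext (by
    change _ = Q * cmp _ _
    rw [ht, hd]
    exact h2)
  refine ⟨Q' * P'⁻¹, ?_⟩
  rw [_root_.mul_inv_rev, inv_inv]
  calc Q' * P'⁻¹ * A * (P' * Q'⁻¹) = Q' * P'⁻¹ * (A * P') * Q'⁻¹ := by group
    _ = Q' * C' * Q'⁻¹ := by rw [e1]; group
    _ = B := by rw [← e2]; group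

/-- conjugacy to the companion matrix -/
theorem exists_conj_cmp {A : GL (Fin 2) F} (hA : NS (A : Matrix (Fin 2) (Fin 2) F)) :
    ∃ h : GL (Fin 2) F, ((h * A * h⁻¹ : GL (Fin 2) F) : Matrix (Fin 2) (Fin 2) F) =
      cmp (A : Matrix (Fin 2) (Fin 2) F).trace (A : Matrix (Fin 2) (Fin 2) F).det := by
  obtain ⟨P, hP, h1⟩ := exists_cyclic hA
  let P' := GeneralLinearGroup.mkOfDetNeZero P hP
  have hdet : (cmp (A : Matrix (Fin 2) (Fin 2) F).trace (A : Matrix (Fin 2) (Fin 2) F).det).det ≠ 0 := by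
    rw [det_cmp]
    exact ((Matrix.isUnit_iff_isUnit_det _).1 A.isUnit).ne_zero
  let C' := GeneralLinearGroup.mkOfDetNeZero _ hdet
  have e1 : A * P' = P' * C' := Units.ext h1
  refine ⟨P'⁻¹, ?_⟩
  have : P'⁻¹ * A * P'⁻¹⁻¹ = C' := by rw [inv_inv, mul_assoc, e1]; group
  rw [this]
  rfl

theorem trace_conj (h A : GL (Fin 2) F) :
    ((h * A * h⁻¹ : GL (Fin 2) F) : Matrix (Fin 2) (Fin 2) F).trace =
      (A : Matrix (Fin 2) (Fin 2) F).trace := by
  rw [Units.val_mul, Matrix.trace_mul_comm, ← Units.val_mul, ← mul_assoc, inv_mul_cancel, one_mul]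

theorem det_conj (h A : GL (Fin 2) F) :
    ((h * A * h⁻¹ : GL (Fin 2) F) : Matrix (Fin 2) (Fin 2) F).det =
      (A : Matrix (Fin 2) (Fin 2) F).det := by
  rw [Units.val_mul, Matrix.det_mul_comm, ← Units.val_mul, ← mul_assoc, inv_mul_cancel, one_mul]

theorem ns_conj {A : GL (Fin 2) F} (hA : NS (A : Matrix (Fin 2) (Fin 2) F)) (h : GL (Fin 2) F) :
    NS ((h * A * h⁻¹ : GL (Fin 2) F) : Matrix (Fin 2) (Fin 2) F) := by
  intro a ha
  apply hA a
  have h1 : (A : Matrix (Fin 2) (Fin 2) F) = ((h⁻¹ * (h * A * h⁻¹) * h : GL (Fin 2) F) :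
      Matrix (Fin 2) (Fin 2) F) := by
    congr 1; group
  rw [h1, Units.val_mul, Units.val_mul, ha, mul_smul_comm, smul_mul_assoc, mul_one,
    ← Units.val_mul, inv_mul_cancel, Units.val_one]

end

section

variable {F F' : Type*} [Field F] [Field F'] (f : F →+* F')

theorem ns_map {A : Matrix (Fin 2) (Fin 2) F} (hA : NS A) : NS (A.map f) := by
  rw [ns_iff] at hA ⊢
  simpa [f.injective.eq_iff] using hA

theorem trace_map' (A : Matrix (Fin 2) (Fin 2) F) : (A.map f).trace = f A.trace := by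
  simp [Matrix.trace_fin_two]

theorem det_map' (A : Matrix (Fin 2) (Fin 2) F) : (A.map f).det = f A.det := by
  simp [Matrix.det_fin_two]

end

end Fermat.Agent.LT.Tw
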