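import Mathlib
import Fermat.Agent.LT.Tw.Two

set_option autoImplicit false

/-!
# Twisted conjugacy classes in `PGL₂(E)`, `E/k` cyclic cubic
-/

namespace Fermat.Agent.LT.Tw

open Matrix

section

variable {k E : Type*} [Field k] [Field E] [Algebra k E]

/-- `σ` generates the Galois group of the cyclic cubic extension `E/k` -/
structure Cyc3 (σ : E ≃ₐ[k] E) : Prop where
  cube : ∀ x, σ (σ (σ x)) = x
  fix : ∀ x, σ x = x → ∃ y : k, algebraMap k E y = x
  ne : ∃ x, σ x ≠ x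

variable (σ : E ≃ₐ[k] E)

/-- entrywise action -/
noncomputable def sg : GL (Fin 2) E →* GL (Fin 2) E := GeneralLinearGroup.map (σ : E →+* E)

/-- base change -/
noncomputable def bc : GL (Fin 2) k →* GL (Fin 2) E := GeneralLinearGroup.map (algebraMap k E)

/-- scalars -/
noncomputable def sc {F : Type*} [Field F] : Fˣ →* GL (Fin 2) F := GeneralLinearGroup.scalar (Fin 2)

/-- `kˣ → Eˣ` -/
noncomputable def bu : kˣ →* Eˣ := Units.map (algebraMap k E : k →* E)

/-- the action of `σ` on units -/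
noncomputable def su : Eˣ →* Eˣ := Units.map (σ : E →* E)

/-- the norm -/
noncomputable def nm (g : GL (Fin 2) E) : GL (Fin 2) E := g * sg σ g * sg σ (sg σ g)

/-- the norm of a unit -/
noncomputable def nu (c : Eˣ) : Eˣ := c * su σ c * su σ (su σ c)

@[simp] theorem sg_apply (g : GL (Fin 2) E) (i j : Fin 2) : sg σ g i j = σ (g i j) := rfl
@[simp] theorem bc_apply (g : GL (Fin 2) k) (i j : Fin 2) :
    bc (E := E) g i j = algebraMap k E (g i j) := rfl
@[simp] theorem su_coe (c : Eˣ) : (su σ c : E) = σ c := rfl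

theorem coe_sg (g : GL (Fin 2) E) : (sg σ g : Matrix (Fin 2) (Fin 2) E) =
    (g : Matrix (Fin 2) (Fin 2) E).map σ := rfl

theorem coe_bc (g : GL (Fin 2) k) : (bc (E := E) g : Matrix (Fin 2) (Fin 2) E) =
    (g : Matrix (Fin 2) (Fin 2) k).map (algebraMap k E) := rfl

@[simp] theorem coe_sc {F : Type*} [Field F] (c : Fˣ) :
    (sc c : Matrix (Fin 2) (Fin 2) F) = (c : F) • (1 : Matrix (Fin 2) (Fin 2) F) := by
  rw [sc, GeneralLinearGroup.coe_scalar, Matrix.scalar_apply, ← Matrix.smul_one_eq_diagonal]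

theorem sc_comm {F : Type*} [Field F] (c : Fˣ) (g : GL (Fin 2) F) : sc c * g = g * sc c := by
  apply Units.ext
  rw [Units.val_mul, Units.val_mul, coe_sc, smul_mul_assoc, mul_smul_comm, one_mul, mul_one]

@[simp] theorem sg_sc (c : Eˣ) : sg σ (sc c) = sc (su σ c) := by
  apply Units.ext
  rw [coe_sg, coe_sc, coe_sc]
  ext i j
  fin_cases i <;> fin_cases j <;> simp

@[simp] theorem bu_coe (c : kˣ) : ((bu c : Eˣ) : E) = algebraMap k E c := rfl

@[simp] theorem bc_sc (c : kˣ) : bc (E := E) (sc c) = sc (bu c) := by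
  apply Units.ext
  rw [coe_bc, coe_sc, coe_sc]
  ext i j
  fin_cases i <;> fin_cases j <;> simp

@[simp] theorem sg_bc (g : GL (Fin 2) k) : sg σ (bc g) = bc g := by
  apply Units.ext
  ext i j
  simp

theorem sg_cube (h : Cyc3 σ) (g : GL (Fin 2) E) : sg σ (sg σ (sg σ g)) = g := by
  apply Units.ext
  ext i j
  simp [h.cube]

theorem su_cube (h : Cyc3 σ) (c : Eˣ) : su σ (su σ (su σ c)) = c := by
  apply Units.ext
  simp [h.cube]

theorem exists_bc_of_fixed (h : Cyc3 σ) {g : GL (Fin 2) E} (hg : sg σ g = g) :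
    ∃ g0 : GL (Fin 2) k, bc g0 = g := by
  have h1 : ∀ i j, ∃ y : k, algebraMap k E y = g i j := fun i j =>
    h.fix _ (by rw [← sg_apply, hg])
  choose y hy using h1
  have h2 : (Matrix.of y).map (algebraMap k E) = (g : Matrix (Fin 2) (Fin 2) E) := by
    ext i j
    simp [hy]
  have h3 : (Matrix.of y).det ≠ 0 := by
    intro h0
    have h4 := det_map' (algebraMap k E) (Matrix.of y)
    rw [h2, h0, map_zero] at h4
    exact ((Matrix.isUnit_iff_isUnit_det _).1 g.isUnit).ne_zero h4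
  exact ⟨GeneralLinearGroup.mkOfDetNeZero _ h3, Units.ext h2⟩

theorem exists_unit_of_fixed (h : Cyc3 σ) {c : Eˣ} (hc : su σ c = c) :
    ∃ c0 : kˣ, Units.map (algebraMap k E : k →* E) c0 = c := by
  obtain ⟨y, hy⟩ := h.fix (c : E) (by rw [← su_coe, hc])
  have : y ≠ 0 := by
    rintro rfl
    rw [map_zero] at hy
    exact c.ne_zero hy.symm
  exact ⟨Units.mk0 y this, Units.ext hy⟩

theorem bc_injective : Function.Injective (bc (k := k) (E := E)) := by
  intro g g' hg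
  apply Units.ext
  ext i j
  apply (algebraMap k E).injective
  rw [← bc_apply, ← bc_apply, hg]

/-- twisted conjugation and norms -/
theorem nm_conj (h : Cyc3 σ) (y g : GL (Fin 2) E) :
    nm σ (y * g * (sg σ y)⁻¹) = y * nm σ g * y⁻¹ := by
  simp only [nm, map_mul, map_inv, sg_cube σ h]
  group

theorem nm_sc_mul (c : Eˣ) (g : GL (Fin 2) E) : nm σ (sc c * g) = sc (nu σ c) * nm σ g := by
  simp only [nm, nu, map_mul, sg_sc]
  calc sc c * g * (sc (su σ c) * sg σ g) * (sc (su σ (su σ c)) * sg σ (sg σ g))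
      = sc c * g * (sc (su σ c) * (sg σ g * sc (su σ (su σ c))) * sg σ (sg σ g)) := by group
    _ = sc c * (g * sc (su σ c)) * sc (su σ (su σ c)) * sg σ g * sg σ (sg σ g) := by
        rw [← sc_comm (su σ (su σ c)) (sg σ g)]; group
    _ = sc c * (sc (su σ c)) * (g * sc (su σ (su σ c))) * sg σ g * sg σ (sg σ g) := by
        rw [← sc_comm (su σ c) g]; group
    _ = sc c * (sc (su σ c)) * (sc (su σ (su σ c)) * g) * sg σ g * sg σ (sg σ g) := by
        rw [← sc_comm (su σ (su σ c)) g]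
    _ = _ := by group

theorem sg_nm (h : Cyc3 σ) (g : GL (Fin 2) E) : sg σ (nm σ g) = g⁻¹ * nm σ g * g := by
  simp only [nm, map_mul, sg_cube σ h]
  group

/-- (a) every element with nonscalar norm is twisted conjugate to a torus element -/
theorem exists_torus (h : Cyc3 σ) (g : GL (Fin 2) E)
    (hN : NS (nm σ g : Matrix (Fin 2) (Fin 2) E)) :
    ∃ (y : GL (Fin 2) E) (γ : GL (Fin 2) k),
      nm σ (y * g * (sg σ y)⁻¹) = bc γ := by
  obtain ⟨y, hy⟩ := exists_conj_cmp hN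
  have h1 : sg σ (y * nm σ g * y⁻¹) = y * nm σ g * y⁻¹ := by
    apply Units.ext
    rw [coe_sg, hy]
    have ht : σ (nm σ g : Matrix (Fin 2) (Fin 2) E).trace = (nm σ g : Matrix (Fin 2) (Fin 2) E).trace := by
      refine (trace_map' (σ : E →+* E) _).symm.trans ?_
      change (sg σ (nm σ g) : Matrix (Fin 2) (Fin 2) E).trace = _
      rw [sg_nm σ h]
      have := trace_conj g⁻¹ (nm σ g)
      rwa [inv_inv] at this
    have hd : σ (nm σ g : Matrix (Fin 2) (Fin 2) E).det = (nm σ g : Matrix (Fin 2) (Fin 2) E).det := by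
      refine (det_map' (σ : E →+* E) _).symm.trans ?_
      change (sg σ (nm σ g) : Matrix (Fin 2) (Fin 2) E).det = _
      rw [sg_nm σ h]
      have := det_conj g⁻¹ (nm σ g)
      rwa [inv_inv] at this
    ext i j
    fin_cases i <;> fin_cases j <;> simp [cmp, ht, hd]
  obtain ⟨γ, hγ⟩ := exists_bc_of_fixed σ h h1
  exact ⟨y, γ, by rw [nm_conj σ h, hγ]⟩

/-- a torus element commutes with its norm -/
theorem comm_of_nm (h : Cyc3 σ) {t : GL (Fin 2) E} {γ : GL (Fin 2) k} (ht : nm σ t = bc γ) :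
    t * bc γ = bc γ * t := by
  have h1 := sg_nm σ h t
  rw [ht, sg_bc] at h1
  calc t * bc γ = t * (t⁻¹ * bc γ * t) := by rw [← h1]
    _ = bc γ * t := by group

theorem coe_lin (x y : E) (γ : GL (Fin 2) k) :
    (x • (1 : Matrix (Fin 2) (Fin 2) E) + y • (bc (E := E) γ : Matrix (Fin 2) (Fin 2) E)).map σ =
      σ x • (1 : Matrix (Fin 2) (Fin 2) E) + σ y • (bc (E := E) γ : Matrix (Fin 2) (Fin 2) E) := by
  ext i j
  fin_cases i <;> fin_cases j <;> simp

/-- elliptic over `k` implies elliptic over the cubic extension `E` -/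
theorem ell_bc (h : Cyc3 σ) {γ : GL (Fin 2) k} (hγ : Ell (γ : Matrix (Fin 2) (Fin 2) k)) :
    Ell (bc (E := E) γ : Matrix (Fin 2) (Fin 2) E) := by
  rw [ell_iff] at hγ ⊢
  rw [coe_bc, trace_map', det_map']
  set τ := (γ : Matrix (Fin 2) (Fin 2) k).trace
  set δ := (γ : Matrix (Fin 2) (Fin 2) k).det
  intro r hr
  have e1 : σ r * σ r - algebraMap k E τ * σ r + algebraMap k E δ = 0 := by
    have := congrArg σ hr
    simpa using this
  have e2 : σ (σ r) * σ (σ r) - algebraMap k E τ * σ (σ r) + algebraMap k E δ = 0 := by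
    have := congrArg σ e1
    simpa using this
  -- two of the three roots coincide
  have h1 : (σ r - r) * (σ r + r - algebraMap k E τ) = 0 := by linear_combination e1 - hr
  have h2 : (σ (σ r) - σ r) * (σ (σ r) + σ r - algebraMap k E τ) = 0 := by
    linear_combination e2 - e1
  have h3 : (σ (σ r) - r) * (σ (σ r) + r - algebraMap k E τ) = 0 := by
    linear_combination e2 - hr
  have hfix : σ r = r := by
    rcases mul_eq_zero.1 h1 with h1 | h1
    · exact sub_eq_zero.1 h1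
    rcases mul_eq_zero.1 h2 with h2 | h2
    · have := congrArg (fun x => σ (σ x)) (sub_eq_zero.1 h2)
      simp only [h.cube] at this
      exact this
    · have h4 : σ (σ r) = r := by linear_combination h2 - h1
      have := congrArg σ h4
      rw [h.cube] at this
      exact this.symm
  obtain ⟨x, hx⟩ := h.fix r hfix
  apply hγ x
  apply (algebraMap k E).injective
  rw [map_add, map_sub, map_mul, map_mul, hx, hr, map_zero]

/-- independence of `1, σ, σ²` -/
theorem exists_ne_zero (h : Cyc3 σ) {a b c : E} (ha : a ≠ 0) :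
    ∃ x : E, x * a + σ x * b + σ (σ x) * c ≠ 0 := by
  by_contra hcon
  push Not at hcon
  obtain ⟨u, hu⟩ := h.ne
  have hu2 : σ (σ u) ≠ u := by
    intro h1
    have := congrArg σ h1
    rw [h.cube] at this
    exact hu this.symm
  have hu3 : σ (σ u) ≠ σ u := fun h1 => hu (σ.injective h1)
  have e0 := hcon 1
  have e1 := hcon u
  have e2 := hcon (u * u)
  simp only [map_mul, map_one, one_mul] at e0 e1 e2
  -- Vandermonde
  have : a * ((σ u - u) * (σ (σ u) - u) * (σ (σ u) - σ u)) = 0 := by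
    linear_combination (σ u * σ (σ u) * (σ (σ u) - σ u)) * e0
      - ((σ (σ u) - σ u) * (σ (σ u) + σ u)) * e1 + (σ (σ u) - σ u) * e2
  rcases mul_eq_zero.1 this with h1 | h1
  · exact ha h1
  · rcases mul_eq_zero.1 h1 with h1 | h1
    · rcases mul_eq_zero.1 h1 with h1 | h1
      · exact hu (sub_eq_zero.1 h1)
      · exact hu2 (sub_eq_zero.1 h1)
    · exact hu3 (sub_eq_zero.1 h1)

/-- Hilbert 90 in the field `E[γ]` -/
theorem hilbert90 (h : Cyc3 σ) {γ : GL (Fin 2) k} (hγ : Ell (γ : Matrix (Fin 2) (Fin 2) k))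
    {t : GL (Fin 2) E} (ht : t * bc γ = bc γ * t) (hN : nm σ t = 1) :
    ∃ s : GL (Fin 2) E, s * bc γ = bc γ * s ∧ t = s * (sg σ s)⁻¹ := by
  have hE := ell_bc σ h hγ
  -- `b = c + σ(c) t + σ²(c) t σ(t)`
  have key : ∃ c : E, c • (1 : Matrix (Fin 2) (Fin 2) E) + σ c • (t : Matrix (Fin 2) (Fin 2) E) +
      σ (σ c) • ((t * sg σ t : GL (Fin 2) E) : Matrix (Fin 2) (Fin 2) E) ≠ 0 := by
    obtain ⟨c, hc⟩ := exists_ne_zero σ h (a := 1) (b := t 0 0)
      (c := ((t * sg σ t : GL (Fin 2) E) : Matrix (Fin 2) (Fin 2) E) 0 0) one_ne_zero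
    refine ⟨c, fun h0 => hc ?_⟩
    have := congrFun (congrFun h0 0) 0
    simpa using this
  obtain ⟨c, hc⟩ := key
  set B := c • (1 : Matrix (Fin 2) (Fin 2) E) + σ c • (t : Matrix (Fin 2) (Fin 2) E) +
      σ (σ c) • ((t * sg σ t : GL (Fin 2) E) : Matrix (Fin 2) (Fin 2) E) with hB
  have hst : sg σ t * bc γ = bc γ * sg σ t := by
    have := congrArg (sg σ) ht
    simpa using this
  have hcomm : (bc (E := E) γ : Matrix (Fin 2) (Fin 2) E) * B = B * (bc (E := E) γ : Matrix (Fin 2) (Fin 2) E) := by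
    have e1 : (t : Matrix (Fin 2) (Fin 2) E) * (bc (E := E) γ : Matrix (Fin 2) (Fin 2) E) =
      (bc (E := E) γ : Matrix (Fin 2) (Fin 2) E) * t := congrArg Units.val ht
    have e2 : ((t * sg σ t : GL (Fin 2) E) : Matrix (Fin 2) (Fin 2) E) * (bc (E := E) γ : Matrix (Fin 2) (Fin 2) E) =
      (bc (E := E) γ : Matrix (Fin 2) (Fin 2) E) * ((t * sg σ t : GL (Fin 2) E) : Matrix (Fin 2) (Fin 2) E) := by
      have : t * sg σ t * bc γ = bc γ * (t * sg σ t) := by
        rw [mul_assoc, hst, ← mul_assoc, ht, mul_assoc]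
      exact congrArg Units.val this
    rw [hB]
    simp only [mul_add, add_mul, mul_smul_comm, smul_mul_assoc, mul_one, one_mul, e1, e2]
  obtain ⟨x, y, hxy⟩ := commutant hE.ns hcomm
  have hdet : B.det ≠ 0 := by
    rw [hxy]
    exact hE.det_ne (by rw [← hxy]; exact hc)
  refine ⟨GeneralLinearGroup.mkOfDetNeZero B hdet, ?_, ?_⟩
  · exact Units.ext hcomm.symm
  · rw [eq_mul_inv_iff_mul_eq]
    apply Units.ext
    rw [Units.val_mul, coe_sg]
    change (t : Matrix (Fin 2) (Fin 2) E) * B.map σ = B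
    have e3 : B.map σ = σ c • (1 : Matrix (Fin 2) (Fin 2) E) + σ (σ c) • (sg σ t : Matrix (Fin 2) (Fin 2) E) +
        c • ((sg σ t * sg σ (sg σ t) : GL (Fin 2) E) : Matrix (Fin 2) (Fin 2) E) := by
      rw [← map_mul, coe_sg σ (t * sg σ t), hB, coe_sg]
      generalize ((t * sg σ t : GL (Fin 2) E) : Matrix (Fin 2) (Fin 2) E) = Z
      ext i j
      simp [h.cube, Matrix.one_apply, apply_ite]
    rw [e3]
    have e4 : (t : Matrix (Fin 2) (Fin 2) E) *
        ((sg σ t * sg σ (sg σ t) : GL (Fin 2) E) : Matrix (Fin 2) (Fin 2) E) = 1 := by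
      rw [← Units.val_mul, ← mul_assoc]
      change ((nm σ t : GL (Fin 2) E) : Matrix (Fin 2) (Fin 2) E) = 1
      rw [hN, Units.val_one]
    rw [mul_add, mul_add, mul_smul_comm, mul_smul_comm, mul_smul_comm, e4, mul_one,
      ← Units.val_mul, hB]
    abel

/-- determinant as a unit, compatible with `σ` -/
theorem det_sg (g : GL (Fin 2) E) : (GeneralLinearGroup.det (sg σ g)) =
    su σ (GeneralLinearGroup.det g) := by
  rw [sg, GeneralLinearGroup.map_det]
  rfl

theorem det_nm (g : GL (Fin 2) E) :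
    GeneralLinearGroup.det (nm σ g) = nu σ (GeneralLinearGroup.det g) := by
  simp only [nm, nu, map_mul, det_sg]

theorem det_sc {F : Type*} [Field F] (c : Fˣ) : GeneralLinearGroup.det (sc c) = c * c := by
  apply Units.ext
  change (sc c : Matrix (Fin 2) (Fin 2) F).det = _
  rw [coe_sc]
  simp [pow_two]

theorem nu_mul (a b : Eˣ) : nu σ (a * b) = nu σ a * nu σ b := by
  apply Units.ext
  simp only [nu, Units.val_mul, su_coe, map_mul]
  ring

theorem nu_inv (a : Eˣ) : nu σ a⁻¹ = (nu σ a)⁻¹ := by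
  rw [eq_inv_iff_mul_eq_one, ← nu_mul, inv_mul_cancel]
  simp [nu]

@[simp] theorem su_bu (z : kˣ) : su σ (bu z) = bu z := by
  apply Units.ext
  rw [su_coe, bu, Units.coe_map]
  exact σ.commutes _

theorem nu_bu (z : kˣ) : nu σ (bu z) = bu z * bu z * bu z := by
  simp [nu]

theorem su_nu (h : Cyc3 σ) (c : Eˣ) : su σ (nu σ c) = nu σ c := by
  apply Units.ext
  simp only [nu, Units.val_mul, su_coe, map_mul, h.cube]
  ring

/-- `z ∈ kˣ ∩ N(E[γ]ˣ)` lies in `N(Eˣ)` -/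
theorem exists_nu {u : GL (Fin 2) E} {z : kˣ} (hN : nm σ u = sc (bu z)) :
    ∃ c : Eˣ, nu σ c = bu z := by
  have h1 := congrArg GeneralLinearGroup.det hN
  rw [det_nm, det_sc] at h1
  refine ⟨bu z * (GeneralLinearGroup.det u)⁻¹, ?_⟩
  rw [nu_mul, nu_inv, h1, nu_bu, mul_inv, mul_assoc (bu z * bu z), mul_inv_cancel_left,
    mul_assoc, mul_inv_cancel, mul_one]

/-- the torus `E[γ]ˣ` -/
def tor (γ : GL (Fin 2) k) : Subgroup (GL (Fin 2) E) where
  carrier := {t | t * bc γ = bc γ * t}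
  one_mem' := by simp
  mul_mem' := by
    intro a b ha hb
    change a * b * bc γ = bc γ * (a * b)
    rw [mul_assoc, show b * bc γ = bc γ * b from hb, ← mul_assoc, show a * bc γ = bc γ * a from ha,
      mul_assoc]
  inv_mem' := by
    intro a ha
    change a⁻¹ * bc γ = bc γ * a⁻¹
    rw [inv_mul_eq_iff_eq_mul, ← mul_assoc, show a * bc γ = bc γ * a from ha, mul_assoc,
      mul_inv_cancel, mul_one]

theorem mem_tor {γ : GL (Fin 2) k} {t : GL (Fin 2) E} : t ∈ tor γ ↔ t * bc γ = bc γ * t := Iff.rfl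

theorem tor_comm {γ : GL (Fin 2) k} (hγ : NS (γ : Matrix (Fin 2) (Fin 2) k)) {a b : GL (Fin 2) E}
    (ha : a ∈ tor γ) (hb : b ∈ tor γ) : a * b = b * a := by
  apply Units.ext
  rw [Units.val_mul, Units.val_mul]
  exact mul_comm_of_comm (ns_map (algebraMap k E) hγ) (congrArg Units.val ha).symm
    (congrArg Units.val hb).symm

theorem sg_mem_tor {γ : GL (Fin 2) k} {a : GL (Fin 2) E} (ha : a ∈ tor γ) : sg σ a ∈ tor γ := by
  have := congrArg (sg σ) ha
  simpa [mem_tor] using this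

theorem sc_mem_tor (γ : GL (Fin 2) k) (c : Eˣ) : sc c ∈ tor γ := sc_comm c _

theorem nm_mul {γ : GL (Fin 2) k} (hγ : NS (γ : Matrix (Fin 2) (Fin 2) k)) {a b : GL (Fin 2) E}
    (ha : a ∈ tor γ) (hb : b ∈ tor γ) : nm σ (a * b) = nm σ a * nm σ b := by
  have h1 : b * sg σ a = sg σ a * b := tor_comm hγ hb (sg_mem_tor σ ha)
  have h2 : (b * sg σ b) * sg σ (sg σ a) = sg σ (sg σ a) * (b * sg σ b) :=
    tor_comm hγ ((tor γ).mul_mem hb (sg_mem_tor σ hb)) (sg_mem_tor σ (sg_mem_tor σ ha))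
  simp only [nm, map_mul]
  calc a * b * (sg σ a * sg σ b) * (sg σ (sg σ a) * sg σ (sg σ b))
      = a * (b * sg σ a) * sg σ b * sg σ (sg σ a) * sg σ (sg σ b) := by group
    _ = a * sg σ a * ((b * sg σ b) * sg σ (sg σ a)) * sg σ (sg σ b) := by rw [h1]; group
    _ = _ := by rw [h2]; group

theorem nm_one : nm σ (1 : GL (Fin 2) E) = 1 := by simp [nm]

theorem nm_inv {γ : GL (Fin 2) k} (hγ : NS (γ : Matrix (Fin 2) (Fin 2) k)) {a : GL (Fin 2) E}
    (ha : a ∈ tor γ) : nm σ a⁻¹ = (nm σ a)⁻¹ := by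
  rw [eq_inv_iff_mul_eq_one, ← nm_mul σ hγ ((tor γ).inv_mem ha) ha, inv_mul_cancel, nm_one]

theorem nm_sc (c : Eˣ) : nm σ (sc c) = sc (nu σ c) := by
  simp [nm, nu]

/-- uniqueness: norms conjugate in `PGL₂(k)` implies `σ`-conjugate in `PGL₂(E)` -/
theorem conj_of_conj (h : Cyc3 σ) {γ γ' : GL (Fin 2) k}
    (hγ : Ell (γ' : Matrix (Fin 2) (Fin 2) k)) {t t' : GL (Fin 2) E}
    (ht : nm σ t = bc γ) (ht' : nm σ t' = bc γ') {x : GL (Fin 2) k} {z : kˣ}
    (hx : x * γ * x⁻¹ = sc z * γ') :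
    ∃ (y : GL (Fin 2) E) (c : Eˣ), y * t * (sg σ y)⁻¹ = sc c * t' := by
  -- replace `t` by its conjugate by `x`
  set t1 : GL (Fin 2) E := bc x * t * (sg σ (bc x))⁻¹ with ht1
  have hN1 : nm σ t1 = bc (sc z * γ') := by
    rw [ht1, nm_conj σ h, ht, ← map_inv, ← map_mul, ← map_mul, hx]
  have hc' : t' ∈ tor γ' := comm_of_nm σ h ht'
  have hc1 : t1 ∈ tor γ' := by
    have h1 := comm_of_nm σ h hN1
    rw [map_mul, bc_sc] at h1
    have h2 : sc (bu z) * (t1 * bc γ') = sc (bu z) * (bc γ' * t1) := by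
      calc sc (bu z) * (t1 * bc γ') = t1 * (sc (bu z) * bc γ') := by
            rw [← mul_assoc, sc_comm, mul_assoc]
        _ = _ := by rw [h1, mul_assoc]
    exact mem_tor.2 (mul_left_cancel h2)
  have hN2 : nm σ (t1 * t'⁻¹) = sc (bu z) := by
    rw [nm_mul σ hγ.ns hc1 ((tor γ').inv_mem hc'), nm_inv σ hγ.ns hc', hN1, ht', map_mul, bc_sc,
      mul_assoc, mul_inv_cancel, mul_one]
  obtain ⟨c, hc⟩ := exists_nu σ hN2
  have hN3 : nm σ (t1 * (sc c * t')⁻¹) = 1 := by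
    rw [nm_mul σ hγ.ns hc1 ((tor γ').inv_mem ((tor γ').mul_mem (sc_mem_tor _ c) hc')),
      nm_inv σ hγ.ns ((tor γ').mul_mem (sc_mem_tor _ c) hc'), nm_sc_mul, ht', hc, hN1, map_mul,
      bc_sc, mul_inv_cancel]
  obtain ⟨s, hs, hs2⟩ := hilbert90 σ h hγ
    ((tor γ').mul_mem hc1 ((tor γ').inv_mem ((tor γ').mul_mem (sc_mem_tor _ c) hc'))) hN3
  refine ⟨s⁻¹ * bc x, c, ?_⟩
  have h5 : t1 = s * (sg σ s)⁻¹ * (sc c * t') := by rw [← hs2]; group
  have h6 : s * (sg σ s)⁻¹ * (sc c * t') = s * (sc c * t') * (sg σ s)⁻¹ := by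
    rw [mul_assoc, mul_assoc, tor_comm hγ.ns ((tor γ').inv_mem (sg_mem_tor σ hs))
      ((tor γ').mul_mem (sc_mem_tor _ c) hc')]
  calc s⁻¹ * bc x * t * (sg σ (s⁻¹ * bc x))⁻¹ = s⁻¹ * t1 * sg σ s := by
        rw [ht1, map_mul, map_inv]; group
    _ = sc c * t' := by rw [h5, h6]; group

/-- the converse -/
theorem conj_of_twconj (h : Cyc3 σ) {γ γ' : GL (Fin 2) k}
    (hγ : NS (γ : Matrix (Fin 2) (Fin 2) k)) (hγ' : NS (γ' : Matrix (Fin 2) (Fin 2) k))
    {t t' : GL (Fin 2) E} (ht : nm σ t = bc γ) (ht' : nm σ t' = bc γ') {y : GL (Fin 2) E} {c : Eˣ}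
    (hy : y * t * (sg σ y)⁻¹ = sc c * t') :
    ∃ (x : GL (Fin 2) k) (z : kˣ), bu z = nu σ c ∧ x * γ * x⁻¹ = sc z * γ' := by
  have h1 : y * bc γ * y⁻¹ = sc (nu σ c) * bc γ' := by
    rw [← ht, ← nm_conj σ h, hy, nm_sc_mul, ht']
  obtain ⟨z, hz⟩ := exists_unit_of_fixed σ h (su_nu σ h c)
  change bu z = _ at hz
  have h2 : y * bc γ * y⁻¹ = bc (sc z * γ') := by rw [h1, map_mul, bc_sc, hz]
  have hns : NS ((sc z * γ' : GL (Fin 2) k) : Matrix (Fin 2) (Fin 2) k) := by
    intro a ha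
    apply hγ' ((z : k)⁻¹ * a)
    rw [Units.val_mul, coe_sc, smul_mul_assoc, one_mul] at ha
    rw [mul_smul, ← ha, smul_smul, inv_mul_cancel₀ z.ne_zero, one_smul]
  obtain ⟨x, hx⟩ := exists_conj hγ hns (by
    apply (algebraMap k E).injective
    rw [← trace_map', ← trace_map', ← coe_bc, ← coe_bc, ← h2, trace_conj]) (by
    apply (algebraMap k E).injective
    rw [← det_map', ← det_map', ← coe_bc, ← coe_bc, ← h2, det_conj])
  exact ⟨x, z, hz, hx⟩

/-- Hilbert 90 for `E/k` -/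
theorem hilbert90u (h : Cyc3 σ) {c : Eˣ} (hc : nu σ c = 1) : ∃ d : Eˣ, c = d * (su σ d)⁻¹ := by
  obtain ⟨x, hx⟩ := exists_ne_zero σ h (a := 1) (b := (c : E)) (c := ((c * su σ c : Eˣ) : E))
    one_ne_zero
  refine ⟨Units.mk0 _ hx, ?_⟩
  rw [eq_mul_inv_iff_mul_eq]
  apply Units.ext
  have h1 : (c : E) * σ c * σ (σ c) = 1 := congrArg Units.val hc
  simp only [Units.val_mul, su_coe, Units.val_mk0, map_add, map_mul, h.cube, mul_one]
  linear_combination x * h1

/-- the centraliser of `tσ` in `PGL₂(E)` is the image of `k[γ]ˣ` -/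
theorem centraliser (h : Cyc3 σ) {γ : GL (Fin 2) k} (hγ : NS (γ : Matrix (Fin 2) (Fin 2) k))
    (htr : (γ : Matrix (Fin 2) (Fin 2) k).trace ≠ 0) {t : GL (Fin 2) E} (ht : nm σ t = bc γ)
    {y : GL (Fin 2) E} {c : Eˣ} (hy : y * t * (sg σ y)⁻¹ = sc c * t) :
    ∃ (d : Eˣ) (y0 : GL (Fin 2) k), y0 * γ = γ * y0 ∧ y = sc d * bc y0 := by
  have h1 : y * bc γ * y⁻¹ = sc (nu σ c) * bc γ := by
    rw [← ht, ← nm_conj σ h, hy, nm_sc_mul, ht]
  have hc : nu σ c = 1 := by
    have h2 := trace_conj y (bc γ)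
    rw [h1, Units.val_mul, coe_sc, smul_mul_assoc, one_mul, Matrix.trace_smul, smul_eq_mul,
      coe_bc, trace_map'] at h2
    apply Units.ext
    apply mul_right_cancel₀ ((map_ne_zero (algebraMap k E)).2 htr)
    rw [h2, Units.val_one, one_mul]
  have hyT : y ∈ tor γ := by
    rw [hc, map_one, one_mul] at h1
    rw [mem_tor]
    exact mul_inv_eq_iff_eq_mul.1 h1
  have htT : t ∈ tor γ := comm_of_nm σ h ht
  have h3 : y * (sg σ y)⁻¹ = sc c := by
    have h4 : y * t * (sg σ y)⁻¹ = y * (sg σ y)⁻¹ * t := by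
      rw [mul_assoc, tor_comm hγ htT ((tor γ).inv_mem (sg_mem_tor σ hyT)), mul_assoc]
    rw [h4] at hy
    exact mul_right_cancel hy
  obtain ⟨d, hd⟩ := hilbert90u σ h hc
  have hfix : sg σ ((sc d)⁻¹ * y) = (sc d)⁻¹ * y := by
    have h5 : sg σ y = (sc c)⁻¹ * y := by
      rw [← h3]; group
    have h6 : (su σ d)⁻¹ * (d * (su σ d)⁻¹)⁻¹ = d⁻¹ := by
      rw [_root_.mul_inv_rev, inv_inv, inv_mul_cancel_left]
    rw [map_mul, map_inv, sg_sc, h5, hd, ← mul_assoc, ← map_inv sc, ← map_inv sc, ← map_inv sc,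
      ← map_mul, h6]
  obtain ⟨y0, hy0⟩ := exists_bc_of_fixed σ h hfix
  refine ⟨d, y0, ?_, ?_⟩
  · apply bc_injective (k := k) (E := E)
    rw [map_mul, map_mul, hy0]
    have : (sc d)⁻¹ * y ∈ tor γ := (tor γ).mul_mem ((tor γ).inv_mem (sc_mem_tor γ d)) hyT
    exact this
  · rw [hy0]; group

/-- elements of `k[γ]ˣ` centralise -/
theorem centralises (h : Cyc3 σ) {γ : GL (Fin 2) k} (hγ : NS (γ : Matrix (Fin 2) (Fin 2) k))
    {t : GL (Fin 2) E} (ht : nm σ t = bc γ) {y0 : GL (Fin 2) k} (hy : y0 * γ = γ * y0) :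
    bc y0 * t * (sg σ (bc y0))⁻¹ = t := by
  have htT : t ∈ tor γ := comm_of_nm σ h ht
  have hyT : bc (E := E) y0 ∈ tor γ := by
    rw [mem_tor, ← map_mul, hy, map_mul]
  rw [sg_bc, tor_comm hγ hyT htT]
  group

end

end Fermat.Agent.LT.Tw
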