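import Fermat.Agent.LT.Tw.GlobNorm
import Fermat.Agent.LT.Glob.Loc

set_option autoImplicit false
set_option linter.unusedSectionVars false

/-!
# From local norms over completions to global approximate norms
-/

open NumberField IsDedekindDomain Matrix
open scoped Pointwise

namespace Fermat.Agent.LT.Tw

open Fermat.Agent.LT.Glob (NO mem_NO NO_le mul_mem_NO mul_mem_NO' NO_mul_mem NO_mono GLO KN mem_KN
  mem_GLO_iff mem_GLO)

section Ring

variable {R : Type*} [CommRing R]

/-- the commutant of a matrix with invertible lower left entry -/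
theorem commutant_ring {A B : Matrix (Fin 2) (Fin 2) R} (hu : IsUnit (A 1 0)) (h : A * B = B * A) :
    ∃ x y : R, B = x • (1 : Matrix (Fin 2) (Fin 2) R) + y • A := by
  have e00 := congrFun (congrFun h 0) 0
  have e10 := congrFun (congrFun h 1) 0
  simp only [Matrix.mul_apply, Fin.sum_univ_two] at e00 e10
  obtain ⟨u, hu⟩ := hu
  have hi : (u : R) * ((u⁻¹ : Rˣ) : R) = 1 := u.mul_inv
  set w : R := ((u⁻¹ : Rˣ) : R)
  rw [← hu] at e00 e10
  refine ⟨B 0 0 - B 1 0 * w * A 0 0, B 1 0 * w, ?_⟩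
  ext i j
  fin_cases i <;> fin_cases j
  · simp
  · simp only [Fin.zero_eta, Fin.isValue, Fin.mk_one, Matrix.add_apply, Matrix.smul_apply, ne_eq,
      zero_ne_one, not_false_eq_true, Matrix.one_apply_ne, smul_eq_mul, mul_zero, zero_add]
    linear_combination (-B 0 1) * hi - w * e00
  · simp only [Fin.mk_one, Fin.isValue, Fin.zero_eta, Matrix.add_apply, Matrix.smul_apply, ne_eq,
      one_ne_zero, not_false_eq_true, Matrix.one_apply_ne, smul_eq_mul, mul_zero, zero_add, ← hu]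
    linear_combination (-B 1 0) * hi
  · simp only [Fin.mk_one, Fin.isValue, Matrix.add_apply, Matrix.smul_apply, Matrix.one_apply_eq,
      smul_eq_mul, mul_one]
    linear_combination (B 0 0 - B 1 1) * hi - w * e10

theorem det_ring (A : Matrix (Fin 2) (Fin 2) R) (x y : R) :
    (x • (1 : Matrix (Fin 2) (Fin 2) R) + y • A).det = x * x + x * y * A.trace + y * y * A.det := by
  simp [Matrix.trace_fin_two, Matrix.det_fin_two]; ring

end Ring

section Near

variable {k E : Type*} [Field k] [NumberField k] [Field E] [NumberField E] [Algebra k E]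
  {R : Type*} [CommRing R]

/-- scalars in `GL₂(R)` -/
noncomputable abbrev scR : Rˣ →* GL (Fin 2) R := GeneralLinearGroup.scalar (Fin 2)

theorem coe_scR (c : Rˣ) : (scR c : Matrix (Fin 2) (Fin 2) R) = (c : R) • 1 := by
  rw [GeneralLinearGroup.coe_scalar]
  exact (Matrix.smul_one_eq_diagonal _).symm

theorem scR_comm (c : Rˣ) (g : GL (Fin 2) R) : scR c * g = g * scR c := by
  apply Units.ext
  rw [Units.val_mul, Units.val_mul, coe_scR]
  simp

/-- the hypotheses on the local ring at `v` -/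
structure LocRing (σ : E ≃ₐ[k] E) (v : HeightOneSpectrum (𝓞 k)) (O : Subring R) (loc : E →+* R)
    (s : R →+* R) (ℓ : ℕ) : Prop where
  s_loc : ∀ a, s (loc a) = loc (σ a)
  cube : ∀ x, s (s (s x)) = x
  s_mem : ∀ x ∈ O, s x ∈ O
  dense : ∀ N : ℕ, N ≠ 0 → ∀ x : R, ∃ a : E, loc a - x ∈ NO O N
  denom : ∀ x : R, ∃ N : ℕ, N ≠ 0 ∧ (N : R) * x ∈ O
  ℓ_ne : ℓ ≠ 0
  unit : ∀ x ∈ NO O ℓ, ∃ y ∈ O, (1 + x) * y = 1
  val : ∀ a : k, loc (algebraMap k E a) ∈ NO O (27 * ℓ) → v.valuation k a < v.valuation k 27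

variable {σ : E ≃ₐ[k] E} {v : HeightOneSpectrum (𝓞 k)} {O : Subring R} {loc : E →+* R}
  {s : R →+* R} {ℓ : ℕ}

theorem s_NO (h : ∀ x ∈ O, s x ∈ O) {N : ℕ} {x : R} (hx : x ∈ NO O N) : s x ∈ NO O N := by
  obtain ⟨y, hy, rfl⟩ := hx
  exact ⟨s y, h y hy, by rw [map_mul, map_natCast]⟩

theorem LocRing.s_KN (h : LocRing σ v O loc s ℓ) {N : ℕ} {u : GL (Fin 2) R} (hu : u ∈ KN O N) :
    GeneralLinearGroup.map s u ∈ KN O N := by
  refine ⟨⟨fun i j => h.s_mem _ (hu.1.1 i j), fun i j => ?_⟩, fun i j => ?_⟩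
  · rw [← map_inv]
    exact h.s_mem _ (hu.1.2 i j)
  · have h1 := s_NO h.s_mem (hu.2 i j)
    rw [map_sub] at h1
    have h2 : s ((1 : Matrix (Fin 2) (Fin 2) R) i j) = (1 : Matrix (Fin 2) (Fin 2) R) i j := by
      rw [Matrix.one_apply]; split_ifs <;> simp
    rw [h2] at h1
    exact h1

/-- units close to one -/
theorem LocRing.exists_KN (h : LocRing σ v O loc s ℓ) {N : ℕ} (hN : ℓ ∣ N)
    (B : Matrix (Fin 2) (Fin 2) R) (hB : ∀ i j, B i j ∈ NO O N) :
    ∃ u ∈ KN O N, (u : Matrix (Fin 2) (Fin 2) R) = 1 + B := by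
  have hdet : (1 + B).det - 1 ∈ NO O N := by
    have : (1 + B).det - 1 = B 0 0 + B 1 1 + (B 0 0 * B 1 1 - B 0 1 * B 1 0) := by
      rw [Matrix.det_fin_two]; simp; ring
    rw [this]
    exact add_mem (add_mem (hB 0 0) (hB 1 1)) (sub_mem (mul_mem_NO (NO_le _ _ (hB 0 0)) (hB 1 1))
      (mul_mem_NO (NO_le _ _ (hB 0 1)) (hB 1 0)))
  obtain ⟨y, hy, hy1⟩ := h.unit _ (NO_mono hN hdet)
  rw [add_sub_cancel] at hy1
  have hu : IsUnit (1 + B).det := IsUnit.of_mul_eq_one y hy1
  let u : GL (Fin 2) R := GeneralLinearGroup.mk'' (1 + B) hu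
  refine ⟨u, ⟨(mem_GLO_iff).2 ⟨fun i j => ?_, ?_⟩, fun i j => ?_⟩, rfl⟩
  · change (1 + B) i j ∈ O
    rw [Matrix.add_apply]
    refine O.add_mem ?_ (NO_le _ _ (hB i j))
    rw [Matrix.one_apply]; split_ifs; exacts [O.one_mem, O.zero_mem]
  · have h1 : (GeneralLinearGroup.det u : R) = (1 + B).det := rfl
    have h2 : ((GeneralLinearGroup.det u)⁻¹ : Rˣ).val = y := by
      rw [← mul_one ((GeneralLinearGroup.det u)⁻¹ : Rˣ).val, ← hy1, ← h1, ← mul_assoc,
        Units.inv_mul, one_mul]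
    rw [h2]
    exact hy
  · change (1 + B) i j - _ ∈ _
    rw [Matrix.add_apply, add_sub_cancel_left]
    exact hB i j

theorem LocRing.common_denom (h : LocRing σ v O loc s ℓ) (A : Matrix (Fin 2) (Fin 2) R) :
    ∃ D : ℕ, D ≠ 0 ∧ ∀ i j, (D : R) * A i j ∈ O := by
  choose d hd hd' using fun i j => h.denom (A i j)
  refine ⟨d 0 0 * d 0 1 * d 1 0 * d 1 1, mul_ne_zero (mul_ne_zero (mul_ne_zero (hd _ _) (hd _ _))
    (hd _ _)) (hd _ _), ?_⟩
  intro i j
  fin_cases i <;> fin_cases j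
  · have : ((d 0 0 * d 0 1 * d 1 0 * d 1 1 : ℕ) : R) * A 0 0 =
      ((d 0 1 * d 1 0 * d 1 1 : ℕ) : R) * ((d 0 0 : R) * A 0 0) := by push_cast; ring
    exact this ▸ O.mul_mem (natCast_mem O _) (hd' 0 0)
  · have : ((d 0 0 * d 0 1 * d 1 0 * d 1 1 : ℕ) : R) * A 0 1 =
      ((d 0 0 * d 1 0 * d 1 1 : ℕ) : R) * ((d 0 1 : R) * A 0 1) := by push_cast; ring
    exact this ▸ O.mul_mem (natCast_mem O _) (hd' 0 1)
  · have : ((d 0 0 * d 0 1 * d 1 0 * d 1 1 : ℕ) : R) * A 1 0 =
      ((d 0 0 * d 0 1 * d 1 1 : ℕ) : R) * ((d 1 0 : R) * A 1 0) := by push_cast; ring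
    exact this ▸ O.mul_mem (natCast_mem O _) (hd' 1 0)
  · have : ((d 0 0 * d 0 1 * d 1 0 * d 1 1 : ℕ) : R) * A 1 1 =
      ((d 0 0 * d 0 1 * d 1 0 : ℕ) : R) * ((d 1 1 : R) * A 1 1) := by push_cast; ring
    exact this ▸ O.mul_mem (natCast_mem O _) (hd' 1 1)

theorem LocRing.nontrivial (h : LocRing σ v O loc s ℓ) : Nontrivial R := by
  by_contra hcon
  rw [not_nontrivial_iff_subsingleton] at hcon
  have := h.val 27 ⟨0, O.zero_mem, Subsingleton.elim _ _⟩
  exact lt_irrefl _ this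

/-- elements commuting with `G` commute with each other -/
theorem comm_ring {A B C : Matrix (Fin 2) (Fin 2) R} (hu : IsUnit (A 1 0)) (h : A * B = B * A)
    (h' : A * C = C * A) : B * C = C * B := by
  obtain ⟨x, y, rfl⟩ := commutant_ring hu h
  rw [add_mul, mul_add, smul_mul_assoc, mul_smul_comm, one_mul, mul_one, smul_mul_assoc,
    mul_smul_comm, h']

set_option maxHeartbeats 1000000 in
/-- a local norm up to the centre is close to a global norm up to the centre -/
theorem locNear_of_norm (h : LocRing σ v O loc s ℓ) (hσ : Cyc3 σ) {γ : GL (Fin 2) k}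
    (hγ : Ell (γ : Matrix (Fin 2) (Fin 2) k)) {x : GL (Fin 2) R} {z : Rˣ} (hz : s z = z)
    (hxγ : x * GeneralLinearGroup.map loc (bc γ) = GeneralLinearGroup.map loc (bc γ) * x)
    (hx : x * GeneralLinearGroup.map s x * GeneralLinearGroup.map s (GeneralLinearGroup.map s x) =
      scR z * GeneralLinearGroup.map loc (bc γ)) : LocNear σ v γ := by
  have := h.nontrivial
  set G : GL (Fin 2) R := GeneralLinearGroup.map loc (bc γ) with hG
  have hGcoe : (G : Matrix (Fin 2) (Fin 2) R) =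
      (bc (E := E) γ : Matrix (Fin 2) (Fin 2) E).map loc := rfl
  have hγ10 : (γ : Matrix (Fin 2) (Fin 2) k) 1 0 ≠ 0 := by
    intro h0
    rw [ell_iff] at hγ
    apply hγ (γ 0 0)
    rw [Matrix.trace_fin_two, Matrix.det_fin_two, h0]
    ring
  have hGu : IsUnit ((G : Matrix (Fin 2) (Fin 2) R) 1 0) := by
    have h1 : IsUnit (algebraMap k E ((γ : Matrix (Fin 2) (Fin 2) k) 1 0)) :=
      (IsUnit.mk0 _ hγ10).map _
    exact h1.map loc
  have hsG : GeneralLinearGroup.map s G = G := by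
    apply Units.ext
    ext i j
    change s (loc (algebraMap k E (γ i j))) = loc (algebraMap k E (γ i j))
    rw [h.s_loc, AlgEquiv.commutes]
  -- any two elements commuting with `G` commute
  have hcomm : ∀ a b : GL (Fin 2) R, a * G = G * a → b * G = G * b → a * b = b * a := by
    intro a b ha hb
    apply Units.ext
    rw [Units.val_mul, Units.val_mul]
    exact comm_ring hGu (congrArg Units.val ha).symm (congrArg Units.val hb).symm
  -- Step 1
  obtain ⟨X0, X1, hX⟩ := commutant_ring hGu (B := (x : Matrix (Fin 2) (Fin 2) R))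
    (congrArg Units.val hxγ).symm
  -- Step 2
  obtain ⟨D1, hD1, hP⟩ := h.common_denom ((x⁻¹ : GL (Fin 2) R) : Matrix (Fin 2) (Fin 2) R)
  obtain ⟨D2, hD2, hQ⟩ := h.common_denom ((x⁻¹ * G : GL (Fin 2) R) : Matrix (Fin 2) (Fin 2) R)
  -- Step 3
  have hM0 : 27 * ℓ ≠ 0 := mul_ne_zero (by norm_num) h.ℓ_ne
  obtain ⟨a0, o0, ho0, ha0⟩ := h.dense (27 * ℓ * (D1 * D2)) (mul_ne_zero hM0 (mul_ne_zero hD1 hD2)) X0
  obtain ⟨a1, o1, ho1, ha1⟩ := h.dense (27 * ℓ * (D1 * D2)) (mul_ne_zero hM0 (mul_ne_zero hD1 hD2)) X1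
  set B : Matrix (Fin 2) (Fin 2) R :=
    (loc a0 - X0) • ((x⁻¹ : GL (Fin 2) R) : Matrix (Fin 2) (Fin 2) R) +
    (loc a1 - X1) • ((x⁻¹ * G : GL (Fin 2) R) : Matrix (Fin 2) (Fin 2) R) with hB
  have hBmem : ∀ i j, B i j ∈ NO O (27 * ℓ) := by
    intro i j
    refine ⟨o0 * (D2 * (D1 * ((x⁻¹ : GL (Fin 2) R) : Matrix (Fin 2) (Fin 2) R) i j)) +
      o1 * (D1 * (D2 * ((x⁻¹ * G : GL (Fin 2) R) : Matrix (Fin 2) (Fin 2) R) i j)),
      O.add_mem (O.mul_mem ho0 (O.mul_mem (natCast_mem O _) (hP i j)))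
        (O.mul_mem ho1 (O.mul_mem (natCast_mem O _) (hQ i j))), ?_⟩
    rw [hB, Matrix.add_apply, Matrix.smul_apply, Matrix.smul_apply, ha0, ha1, smul_eq_mul,
      smul_eq_mul]
    push_cast
    ring
  obtain ⟨u, huK, hu⟩ := h.exists_KN (dvd_mul_left ℓ 27) B hBmem
  set t0 : Matrix (Fin 2) (Fin 2) E := a0 • 1 + a1 • (bc (E := E) γ : Matrix (Fin 2) (Fin 2) E)
    with ht0
  have hloct0 : t0.map loc = (x : Matrix (Fin 2) (Fin 2) R) * (u : Matrix (Fin 2) (Fin 2) R) := by
    have e1 : t0.map loc = (loc a0) • (1 : Matrix (Fin 2) (Fin 2) R) +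
        (loc a1) • (G : Matrix (Fin 2) (Fin 2) R) := by
      rw [ht0, hGcoe]
      ext i j
      fin_cases i <;> fin_cases j <;> simp
    have e2 : (x : Matrix (Fin 2) (Fin 2) R) * ((x⁻¹ : GL (Fin 2) R) : Matrix (Fin 2) (Fin 2) R) = 1 := by
      rw [← Units.val_mul, mul_inv_cancel, Units.val_one]
    have e3 : (x : Matrix (Fin 2) (Fin 2) R) *
        ((x⁻¹ * G : GL (Fin 2) R) : Matrix (Fin 2) (Fin 2) R) = G := by
      rw [← Units.val_mul, mul_inv_cancel_left]
    rw [e1, hu, hB, mul_add, mul_add, mul_one, mul_smul_comm, mul_smul_comm, e2, e3]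
    conv_rhs => rw [hX]
    module
  have hdetmap : (t0.map loc).det = loc t0.det := (RingHom.map_det loc t0).symm
  have hdet0 : t0.det ≠ 0 := by
    intro h0
    rw [h0, map_zero, hloct0, ← Units.val_mul] at hdetmap
    have h1 : IsUnit (((x * u : GL (Fin 2) R) : Matrix (Fin 2) (Fin 2) R).det) :=
      (Matrix.isUnit_iff_isUnit_det _).1 (x * u).isUnit
    rw [hdetmap] at h1
    exact not_isUnit_zero h1
  set t : GL (Fin 2) E := GeneralLinearGroup.mkOfDetNeZero t0 hdet0 with ht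
  have hloct : GeneralLinearGroup.map loc t = x * u := Units.ext hloct0
  have htγ : t ∈ tor γ := by
    apply Units.ext
    change t0 * (bc (E := E) γ : Matrix (Fin 2) (Fin 2) E) = (bc (E := E) γ : Matrix (Fin 2) (Fin 2) E) * t0
    rw [ht0]
    simp only [add_mul, mul_add, smul_mul_assoc, mul_smul_comm, one_mul, mul_one]
  have huG : u * G = G * u := by
    have h1 : GeneralLinearGroup.map loc t * G = G * GeneralLinearGroup.map loc t := by
      rw [hG, ← map_mul, ← map_mul, htγ]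
    rw [hloct] at h1
    have h2 : x * (u * G) = x * (G * u) := by
      rw [← mul_assoc, h1, ← mul_assoc, ← hxγ, mul_assoc]
    exact mul_left_cancel h2
  -- Step 4
  obtain ⟨Dz, hDz, hDz'⟩ := h.denom ((z⁻¹ : Rˣ) : R)
  obtain ⟨b, o, ho, hb⟩ := h.dense (3 * (27 * ℓ * Dz)) (mul_ne_zero (by norm_num)
    (mul_ne_zero hM0 hDz)) z
  obtain ⟨c0, hc0⟩ := hσ.fix (b + σ b + σ (σ b)) (by
    rw [map_add, map_add, hσ.cube]; ring)
  set w : R := ((Dz : R) * ((z⁻¹ : Rˣ) : R)) * (o + s o + s (s o)) with hw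
  have hwO : w ∈ O := O.mul_mem hDz' (O.add_mem (O.add_mem ho (h.s_mem _ ho)) (h.s_mem _ (h.s_mem _ ho)))
  have h3R : loc (algebraMap k E 3) = 3 := by rw [map_ofNat, map_ofNat]
  have hz1 : loc (algebraMap k E (c0 / 3)) = z * (1 + ((27 * ℓ : ℕ) : R) * w) := by
    have e1 : (3 : R) * loc (algebraMap k E (c0 / 3)) = loc b + s (loc b) + s (s (loc b)) := by
      rw [← h3R, ← map_mul, ← map_mul, mul_div_cancel₀ _ (by norm_num : (3 : k) ≠ 0), hc0, h.s_loc,
        h.s_loc, map_add, map_add]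
    have e2 : loc b = z + ((3 * (27 * ℓ * Dz) : ℕ) : R) * o := by rw [← hb]; ring
    have e3 : (3 : R) * loc (algebraMap k E (c0 / 3)) = 3 * (z * (1 + ((27 * ℓ : ℕ) : R) * w)) := by
      rw [e1, e2, map_add, map_add, map_mul, map_mul, hz, hz, map_natCast, map_natCast, hw]
      have e4 : (z : R) * ((z⁻¹ : Rˣ) : R) = 1 := z.mul_inv
      push_cast
      linear_combination (-(3 * (27 * (ℓ : R)) * Dz * (o + s o + s (s o)))) * e4
    have h3u : IsUnit (3 : R) := by
      rw [← h3R]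
      exact ((IsUnit.mk0 (3 : k) (by norm_num)).map (algebraMap k E)).map loc
    exact h3u.mul_left_cancel e3
  obtain ⟨u2, hu2K, hu2⟩ := h.exists_KN (dvd_mul_left ℓ 27)
    ((((27 * ℓ : ℕ) : R) * w) • (1 : Matrix (Fin 2) (Fin 2) R)) (by
      intro i j
      rw [Matrix.smul_apply, smul_eq_mul]
      refine mul_mem_NO' ⟨w, hwO, rfl⟩ ?_
      rw [Matrix.one_apply]; split_ifs; exacts [O.one_mem, O.zero_mem])
  have hz1ne : c0 / 3 ≠ 0 := by
    intro h0
    rw [h0, map_zero, map_zero] at hz1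
    have h1 : IsUnit ((1 + ((27 * ℓ : ℕ) : R) * w)) := by
      have h2 := (Matrix.isUnit_iff_isUnit_det _).1 u2.isUnit
      have h3 : (u2 : Matrix (Fin 2) (Fin 2) R).det = (1 + ((27 * ℓ : ℕ) : R) * w) ^ 2 := by
        rw [hu2, Matrix.det_fin_two]; simp; ring
      rw [h3] at h2
      exact (isUnit_pow_iff (by norm_num)).1 h2
    exact not_isUnit_zero (hz1 ▸ (z.isUnit.mul h1))
  set z1 : kˣ := Units.mk0 _ hz1ne with hz1'
  -- Step 5
  have hnmT : nm σ t ∈ tor γ :=
    (tor γ).mul_mem ((tor γ).mul_mem htγ (sg_mem_tor σ htγ)) (sg_mem_tor σ (sg_mem_tor σ htγ))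
  have hγT : bc (E := E) γ ∈ tor γ := rfl
  set C' : GL (Fin 2) E := sc (bu z1) * bc γ * (nm σ t)⁻¹ with hC'
  have hC'T : C' ∈ tor γ := (tor γ).mul_mem ((tor γ).mul_mem (sc_mem_tor _ _) hγT)
    ((tor γ).inv_mem hnmT)
  have hsC' : sg σ C' = C' := by
    have h1 : sg σ (nm σ t) = nm σ t := by
      rw [sg_nm σ hσ, mul_assoc, tor_comm hγ.ns hnmT htγ]
      group
    rw [hC', map_mul, map_mul, map_inv, h1, sg_sc, su_bu, sg_bc]
  obtain ⟨C, hC⟩ := exists_bc_of_fixed σ hσ hsC'
  refine ⟨t, z1⁻¹, C, htγ, ?_, ?_, ?_⟩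
  · apply bc_injective (k := k) (E := E)
    rw [map_mul, map_mul, hC]
    exact hC'T
  · rw [hC, hC', map_inv, map_inv]
    have h1 : (sc (bu z1) : GL (Fin 2) E)⁻¹ * nm σ t * (sc (bu z1) * bc γ * (nm σ t)⁻¹) =
        (sc (bu z1) : GL (Fin 2) E)⁻¹ * (nm σ t * sc (bu z1)) * (bc γ * (nm σ t)⁻¹) := by group
    rw [h1, ← sc_comm, tor_comm hγ.ns hγT ((tor γ).inv_mem hnmT)]
    group
  · intro i j
    apply h.val
    have hmap : GeneralLinearGroup.map loc C' ∈ KN O (27 * ℓ) := by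
      -- images of Galois conjugates
      have hsgl : ∀ g : GL (Fin 2) E, GeneralLinearGroup.map loc (sg σ g) =
          GeneralLinearGroup.map s (GeneralLinearGroup.map loc g) := by
        intro g
        apply Units.ext
        ext i j
        exact (h.s_loc _).symm
      have hsc : ∀ a : GL (Fin 2) R, a * G = G * a →
          GeneralLinearGroup.map s a * G = G * GeneralLinearGroup.map s a := by
        intro a ha
        have := congrArg (GeneralLinearGroup.map s) ha
        rwa [map_mul, map_mul, hsG] at this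
      set sx := GeneralLinearGroup.map s x
      set ssx := GeneralLinearGroup.map s sx
      set su := GeneralLinearGroup.map s u
      set ssu := GeneralLinearGroup.map s su
      have hsxG := hsc x hxγ
      have hssxG := hsc _ hsxG
      have hsuG := hsc u huG
      have hssuG := hsc _ hsuG
      have hU3 : u * su * ssu ∈ KN O (27 * ℓ) :=
        mul_mem (mul_mem huK (h.s_KN huK)) (h.s_KN (h.s_KN huK))
      have hnmloc : GeneralLinearGroup.map loc (nm σ t) = scR z * G * (u * su * ssu) := by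
        rw [nm, map_mul, map_mul, hsgl, hsgl, hsgl, hloct, map_mul, map_mul, ← hx]
        change x * u * (sx * su) * (ssx * ssu) = x * sx * ssx * (u * su * ssu)
        have e1 : u * sx = sx * u := hcomm _ _ huG hsxG
        have e2 : u * su * ssx = ssx * (u * su) := hcomm _ _ (by
          rw [mul_assoc, hsuG, ← mul_assoc, huG, mul_assoc]) hssxG
        calc x * u * (sx * su) * (ssx * ssu) = x * (u * sx) * su * ssx * ssu := by group
          _ = x * sx * (u * su * ssx) * ssu := by rw [e1]; group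
          _ = _ := by rw [e2]; group
      have hscz : GeneralLinearGroup.map loc (sc (bu z1) : GL (Fin 2) E) = scR z * u2 := by
        apply Units.ext
        rw [Units.val_mul, coe_scR, hu2]
        have : ((GeneralLinearGroup.map loc (sc (bu z1) : GL (Fin 2) E) : GL (Fin 2) R) :
            Matrix (Fin 2) (Fin 2) R) = loc (algebraMap k E (c0 / 3)) • 1 := by
          change ((sc (bu z1) : GL (Fin 2) E) : Matrix (Fin 2) (Fin 2) E).map loc = _
          rw [coe_sc]
          ext i j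
          fin_cases i <;> fin_cases j <;> simp [hz1']
        rw [this, hz1]
        ext i j
        fin_cases i <;> fin_cases j <;> simp
      have : GeneralLinearGroup.map loc C' = u2 * (u * su * ssu)⁻¹ := by
        rw [hC', map_mul, map_mul, map_inv, hscz, hnmloc]
        change scR z * u2 * G * (scR z * G * (u * su * ssu))⁻¹ = _
        have hu2G : u2 * G = G * u2 := by
          apply Units.ext
          rw [Units.val_mul, Units.val_mul, hu2]
          simp only [add_mul, mul_add, smul_mul_assoc, mul_smul_comm, one_mul, mul_one]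
        have e3 : (scR z * G)⁻¹ = G⁻¹ * (scR z)⁻¹ := by group
        calc scR z * u2 * G * (scR z * G * (u * su * ssu))⁻¹
            = scR z * (u2 * G) * (u * su * ssu)⁻¹ * G⁻¹ * (scR z)⁻¹ := by group
          _ = scR z * (G * (u2 * (u * su * ssu)⁻¹)) * G⁻¹ * (scR z)⁻¹ := by rw [hu2G]; group
          _ = scR z * (u2 * (u * su * ssu)⁻¹ * G) * G⁻¹ * (scR z)⁻¹ := by
              rw [hcomm (u2 * (u * su * ssu)⁻¹) G ?_ rfl]
              have e4 : (u * su * ssu) * G = G * (u * su * ssu) := by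
                rw [mul_assoc, hssuG, ← mul_assoc, mul_assoc u, hsuG, ← mul_assoc, huG]
                simp only [mul_assoc]
                rfl
              have e5 : (u * su * ssu)⁻¹ * G = G * (u * su * ssu)⁻¹ := by
                rw [inv_mul_eq_iff_eq_mul, ← mul_assoc, e4, mul_assoc, mul_inv_cancel, mul_one]
              rw [mul_assoc, e5, ← mul_assoc, hu2G, mul_assoc]
          _ = (scR z * (u2 * (u * su * ssu)⁻¹)) * (scR z)⁻¹ := by group
          _ = _ := by rw [scR_comm]; group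
      rw [this]
      exact mul_mem hu2K (inv_mem hU3)
    have h1 := hmap.2 i j
    have h2 : loc (algebraMap k E (((C : Matrix (Fin 2) (Fin 2) k) - 1) i j)) =
        (GeneralLinearGroup.map loc C') i j - (1 : Matrix (Fin 2) (Fin 2) R) i j := by
      rw [← hC]
      rw [Matrix.sub_apply, map_sub, map_sub]
      congr 1
      rw [Matrix.one_apply, Matrix.one_apply]
      split_ifs <;> simp
    rw [h2]
    exact h1

end Near

end Fermat.Agent.LT.Tw
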