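import Mathlib
import Fermat.Agent.LT.Tw.Class

set_option autoImplicit false

/-!
# Elements with non-elliptic norm are twisted conjugate into the Borel subgroup
-/

namespace Fermat.Agent.LT.Tw

open Matrix

section

variable {F : Type*} [Field F]

theorem exists_col {v : Fin 2 → F} (hv : v ≠ 0) : ∃ y : GL (Fin 2) F, ∀ i, y i 0 = v i := by
  by_cases h : v 0 = 0
  · have h1 : v 1 ≠ 0 := by
      intro h1
      apply hv
      ext i
      fin_cases i
      · exact h
      · exact h1
    have hd : (!![v 0, 1; v 1, 0] : Matrix (Fin 2) (Fin 2) F).det ≠ 0 := by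
      rw [Matrix.det_fin_two_of, mul_zero, zero_sub, one_mul]
      exact neg_ne_zero.2 h1
    refine ⟨GeneralLinearGroup.mkOfDetNeZero _ hd, fun i => ?_⟩
    fin_cases i <;> rfl
  · have hd : (!![v 0, 0; v 1, 1] : Matrix (Fin 2) (Fin 2) F).det ≠ 0 := by
      rw [Matrix.det_fin_two_of, zero_mul, sub_zero, mul_one]
      exact h
    refine ⟨GeneralLinearGroup.mkOfDetNeZero _ hd, fun i => ?_⟩
    fin_cases i <;> rfl

theorem prop_of_ker {A : Matrix (Fin 2) (Fin 2) F} (hA : A ≠ 0) {v w : Fin 2 → F} (hv : v ≠ 0)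
    (h1 : A *ᵥ v = 0) (h2 : A *ᵥ w = 0) : ∃ c : F, w = c • v := by
  have hi : ∃ i, A i 0 ≠ 0 ∨ A i 1 ≠ 0 := by
    by_contra hcon
    push Not at hcon
    apply hA
    ext i j
    fin_cases j
    · exact (hcon i).1
    · exact (hcon i).2
  obtain ⟨i, hi⟩ := hi
  have e1 : A i 0 * v 0 + A i 1 * v 1 = 0 := by
    have := congrFun h1 i
    simpa [Matrix.mulVec, dotProduct, Fin.sum_univ_two] using this
  have e2 : A i 0 * w 0 + A i 1 * w 1 = 0 := by
    have := congrFun h2 i
    simpa [Matrix.mulVec, dotProduct, Fin.sum_univ_two] using this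
  have hd : v 0 * w 1 = v 1 * w 0 := by
    rcases hi with h | h
    · apply mul_left_cancel₀ h
      linear_combination w 1 * e1 - v 1 * e2
    · apply mul_left_cancel₀ h
      linear_combination v 0 * e2 - w 0 * e1
  by_cases h0 : v 0 = 0
  · have h1 : v 1 ≠ 0 := by
      intro h1
      apply hv
      ext i
      fin_cases i
      · exact h0
      · exact h1
    refine ⟨w 1 / v 1, ?_⟩
    ext i
    fin_cases i
    · simp only [Fin.zero_eta, Pi.smul_apply, smul_eq_mul]
      rw [h0, mul_zero]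
      rw [h0, zero_mul] at hd
      exact (mul_eq_zero.1 hd.symm).resolve_left h1
    · simp only [Fin.mk_one, Pi.smul_apply, smul_eq_mul]
      field_simp
  · refine ⟨w 0 / v 0, ?_⟩
    ext i
    fin_cases i
    · simp only [Fin.zero_eta, Pi.smul_apply, smul_eq_mul]
      field_simp
    · simp only [Fin.mk_one, Pi.smul_apply, smul_eq_mul]
      field_simp
      linear_combination hd

/-- an element with an eigenvalue is conjugate into the Borel subgroup -/
theorem exists_borel {g : GL (Fin 2) F} (h : ¬ Ell (g : Matrix (Fin 2) (Fin 2) F)) :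
    ∃ y : GL (Fin 2) F, (y⁻¹ * g * y) 1 0 = 0 := by
  rw [ell_iff] at h
  push Not at h
  obtain ⟨x, hx⟩ := h
  have hd : ((g : Matrix (Fin 2) (Fin 2) F) - x • 1).det = 0 := by
    rw [Matrix.det_fin_two]
    rw [Matrix.trace_fin_two, Matrix.det_fin_two] at hx
    simp
    linear_combination hx
  obtain ⟨v, hv, hv'⟩ := Matrix.exists_mulVec_eq_zero_iff.2 hd
  obtain ⟨y, hy⟩ := exists_col hv
  refine ⟨y, ?_⟩
  have h1 : ∀ i, (g * y) i 0 = x * y i 0 := by
    rw [Fin.forall_fin_two]
    constructor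
    · have h2 := congrFun hv' 0
      rw [Units.val_mul, Matrix.mul_apply, Fin.sum_univ_two, hy, hy]
      simp [Matrix.mulVec, dotProduct, Fin.sum_univ_two] at h2
      linear_combination h2
    · have h2 := congrFun hv' 1
      rw [Units.val_mul, Matrix.mul_apply, Fin.sum_univ_two, hy, hy]
      simp [Matrix.mulVec, dotProduct, Fin.sum_univ_two] at h2
      linear_combination h2
  have h3 : (y⁻¹ * y) 1 0 = 0 := by
    rw [inv_mul_cancel]; rfl
  rw [mul_assoc, Units.val_mul, Matrix.mul_apply, Fin.sum_univ_two, h1, h1]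
  rw [Units.val_mul, Matrix.mul_apply, Fin.sum_univ_two] at h3
  linear_combination x * h3

end

section

variable {k E : Type*} [Field k] [Field E] [Algebra k E] (σ : E ≃ₐ[k] E)

/-- a semilinear eigenvector gives a conjugate in the Borel subgroup -/
theorem borel_of_vec {t : GL (Fin 2) E} {v : Fin 2 → E} (hv : v ≠ 0) {c : E}
    (h : (t : Matrix (Fin 2) (Fin 2) E) *ᵥ (fun i => σ (v i)) = c • v) :
    ∃ y : GL (Fin 2) E, (y⁻¹ * t * sg σ y) 1 0 = 0 := by
  obtain ⟨y, hy⟩ := exists_col hv
  refine ⟨y, ?_⟩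
  have h1 : ∀ i, (t * sg σ y) i 0 = c * y i 0 := by
    intro i
    have h2 := congrFun h i
    rw [Units.val_mul, Matrix.mul_apply, Fin.sum_univ_two, sg_apply, sg_apply, hy, hy, hy]
    simpa [Matrix.mulVec, dotProduct, Fin.sum_univ_two] using h2
  have h3 : (y⁻¹ * y) 1 0 = 0 := by
    rw [inv_mul_cancel]; rfl
  rw [mul_assoc, Units.val_mul, Matrix.mul_apply, Fin.sum_univ_two, h1, h1]
  rw [Units.val_mul, Matrix.mul_apply, Fin.sum_univ_two] at h3
  linear_combination c * h3

theorem borel_of_nm_one (h : Cyc3 σ) {t : GL (Fin 2) E} (hN : nm σ t = 1) :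
    ∃ v : Fin 2 → E, v ≠ 0 ∧ (t : Matrix (Fin 2) (Fin 2) E) *ᵥ (fun i => σ (v i)) = v := by
  obtain ⟨c, hc⟩ := exists_ne_zero σ h (a := 1) (b := t 0 0)
      (c := ((t * sg σ t : GL (Fin 2) E) : Matrix (Fin 2) (Fin 2) E) 0 0) one_ne_zero
  set B := c • (1 : Matrix (Fin 2) (Fin 2) E) + σ c • (t : Matrix (Fin 2) (Fin 2) E) +
      σ (σ c) • ((t * sg σ t : GL (Fin 2) E) : Matrix (Fin 2) (Fin 2) E) with hB
  have key : (t : Matrix (Fin 2) (Fin 2) E) * B.map σ = B := by
    have e3 : B.map σ = σ c • (1 : Matrix (Fin 2) (Fin 2) E) + σ (σ c) • (sg σ t : Matrix (Fin 2) (Fin 2) E) +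
        c • ((sg σ t * sg σ (sg σ t) : GL (Fin 2) E) : Matrix (Fin 2) (Fin 2) E) := by
      rw [← map_mul, coe_sg σ (t * sg σ t), hB, coe_sg]
      generalize ((t * sg σ t : GL (Fin 2) E) : Matrix (Fin 2) (Fin 2) E) = Z
      ext i j
      simp [h.cube, Matrix.one_apply, apply_ite]
    rw [e3]
    have e4 : (t : Matrix (Fin 2) (Fin 2) E) *
        ((sg σ t * sg σ (sg σ t) : GL (Fin 2) E) : Matrix (Fin 2) (Fin 2) E) = 1 := by
      rw [← Units.val_mul, ← mul_assoc]
      change ((nm σ t : GL (Fin 2) E) : Matrix (Fin 2) (Fin 2) E) = 1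
      rw [hN, Units.val_one]
    rw [mul_add, mul_add, mul_smul_comm, mul_smul_comm, mul_smul_comm, e4, mul_one,
      ← Units.val_mul, hB]
    abel
  refine ⟨fun i => B i 0, fun h0 => hc ?_, ?_⟩
  · have := congrFun h0 0
    simpa [hB] using this
  · ext i
    have h1 := congrFun (congrFun key i) 0
    rw [Matrix.mul_apply] at h1
    simpa [Matrix.mulVec, dotProduct] using h1

/-- **(HE)**: an element whose norm is not elliptic is twisted conjugate into the Borel
subgroup -/
theorem exists_borel_nm (h : Cyc3 σ) {t : GL (Fin 2) E}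
    (hN : ¬ Ell (nm σ t : Matrix (Fin 2) (Fin 2) E)) :
    ∃ y : GL (Fin 2) E, (y⁻¹ * t * sg σ y) 1 0 = 0 := by
  by_cases hs : NS (nm σ t : Matrix (Fin 2) (Fin 2) E)
  · -- nonscalar norm with an eigenvalue
    rw [ell_iff] at hN
    push Not at hN
    obtain ⟨r, hr⟩ := hN
    have ht : σ (nm σ t : Matrix (Fin 2) (Fin 2) E).trace = (nm σ t : Matrix (Fin 2) (Fin 2) E).trace := by
      refine (trace_map' (σ : E →+* E) _).symm.trans ?_
      change (sg σ (nm σ t) : Matrix (Fin 2) (Fin 2) E).trace = _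
      rw [sg_nm σ h]
      have := trace_conj t⁻¹ (nm σ t)
      rwa [inv_inv] at this
    have hd : σ (nm σ t : Matrix (Fin 2) (Fin 2) E).det = (nm σ t : Matrix (Fin 2) (Fin 2) E).det := by
      refine (det_map' (σ : E →+* E) _).symm.trans ?_
      change (sg σ (nm σ t) : Matrix (Fin 2) (Fin 2) E).det = _
      rw [sg_nm σ h]
      have := det_conj t⁻¹ (nm σ t)
      rwa [inv_inv] at this
    have hfix : σ r = r := by
      generalize (nm σ t : Matrix (Fin 2) (Fin 2) E).trace = τ at *
      generalize (nm σ t : Matrix (Fin 2) (Fin 2) E).det = δ at *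
      have e1 : σ r * σ r - τ * σ r + δ = 0 := by
        have := congrArg σ hr
        rw [map_add, map_sub, map_mul, map_mul, map_zero, ht, hd] at this
        exact this
      have e2 : σ (σ r) * σ (σ r) - τ * σ (σ r) + δ = 0 := by
        have := congrArg σ e1
        rw [map_add, map_sub, map_mul, map_mul, map_zero, ht, hd] at this
        exact this
      have h1 : (σ r - r) * (σ r + r - τ) = 0 := by linear_combination e1 - hr
      have h2 : (σ (σ r) - σ r) * (σ (σ r) + σ r - τ) = 0 := by linear_combination e2 - e1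
      rcases mul_eq_zero.1 h1 with h1 | h1
      · exact sub_eq_zero.1 h1
      rcases mul_eq_zero.1 h2 with h2 | h2
      · have := congrArg (fun x => σ (σ x)) (sub_eq_zero.1 h2)
        simp only [h.cube] at this
        exact this
      · have h4 : σ (σ r) = r := by linear_combination h2 - h1
        have := congrArg σ h4
        rw [h.cube] at this
        exact this.symm
    have hdet : ((nm σ t : Matrix (Fin 2) (Fin 2) E) - r • 1).det = 0 := by
      rw [Matrix.det_fin_two]
      rw [Matrix.trace_fin_two, Matrix.det_fin_two] at hr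
      simp
      linear_combination hr
    obtain ⟨v, hv, hv'⟩ := Matrix.exists_mulVec_eq_zero_iff.2 hdet
    have hne : (nm σ t : Matrix (Fin 2) (Fin 2) E) - r • 1 ≠ 0 := fun h0 =>
      hs r (sub_eq_zero.1 h0)
    have hw : ((nm σ t : Matrix (Fin 2) (Fin 2) E) - r • 1) *ᵥ
        ((t : Matrix (Fin 2) (Fin 2) E) *ᵥ (fun i => σ (v i))) = 0 := by
      have e1 : (nm σ t : Matrix (Fin 2) (Fin 2) E) * (t : Matrix (Fin 2) (Fin 2) E) =
          (t : Matrix (Fin 2) (Fin 2) E) * (nm σ t : Matrix (Fin 2) (Fin 2) E).map σ := by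
        have h5 := sg_nm σ h t
        have h6 : nm σ t * t = t * sg σ (nm σ t) := by rw [h5]; group
        have h7 := congrArg Units.val h6
        exact h7
      have e2 : ((nm σ t : Matrix (Fin 2) (Fin 2) E) - r • 1) * (t : Matrix (Fin 2) (Fin 2) E) =
          (t : Matrix (Fin 2) (Fin 2) E) * ((nm σ t : Matrix (Fin 2) (Fin 2) E) - r • 1).map σ := by
        have e3 : ((nm σ t : Matrix (Fin 2) (Fin 2) E) - r • 1).map σ =
            (nm σ t : Matrix (Fin 2) (Fin 2) E).map σ - r • 1 := by
          ext i j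
          fin_cases i <;> fin_cases j <;> simp [hfix]
        rw [e3, sub_mul, mul_sub, e1, smul_mul_assoc, mul_smul_comm, one_mul, mul_one]
      rw [Matrix.mulVec_mulVec, e2, ← Matrix.mulVec_mulVec]
      have e4 : (((nm σ t : Matrix (Fin 2) (Fin 2) E) - r • 1).map σ) *ᵥ (fun i => σ (v i)) = 0 := by
        ext i
        have h8 := congrArg σ (congrFun hv' i)
        simpa [Matrix.mulVec, dotProduct, Fin.sum_univ_two] using h8
      rw [e4, Matrix.mulVec_zero]
    obtain ⟨c, hc⟩ := prop_of_ker hne hv hv' hw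
    exact borel_of_vec σ hv hc
  · -- scalar norm
    have hs' : ∃ a : E, (nm σ t : Matrix (Fin 2) (Fin 2) E) = a • (1 : Matrix (Fin 2) (Fin 2) E) := by
      by_contra hcon
      push Not at hcon
      exact hs hcon
    obtain ⟨a, ha⟩ := hs'
    have ha0 : a ≠ 0 := by
      rintro rfl
      rw [zero_smul] at ha
      have := ((Matrix.isUnit_iff_isUnit_det _).1 (nm σ t).isUnit).ne_zero
      rw [ha, Matrix.det_zero] at this
      exact this rfl
    set u : Eˣ := Units.mk0 a ha0 with hu
    have hN' : nm σ t = sc u := by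
      apply Units.ext
      rw [ha, coe_sc]
      rfl
    have hsu : su σ u = u := by
      have h5 := sg_nm σ h t
      rw [hN', sg_sc, mul_assoc, sc_comm u t, inv_mul_cancel_left] at h5
      apply Units.ext
      have h6 : (sc (su σ u) : Matrix (Fin 2) (Fin 2) E) 0 0 =
        (sc u : Matrix (Fin 2) (Fin 2) E) 0 0 := by rw [h5]
      rw [coe_sc, coe_sc, Matrix.smul_apply, Matrix.smul_apply, Matrix.one_apply_eq, smul_eq_mul,
        smul_eq_mul, mul_one, mul_one] at h6
      exact h6
    have hdet := congrArg GeneralLinearGroup.det hN'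
    rw [det_nm, det_sc] at hdet
    set c : Eˣ := u * (GeneralLinearGroup.det t)⁻¹ with hc
    have hnc : nu σ c = u := by
      have h7 : nu σ u = u * u * u := by
        simp [nu, hsu]
      rw [hc, nu_mul, nu_inv, hdet, h7, mul_inv, mul_assoc (u * u), mul_inv_cancel_left, mul_assoc,
        mul_inv_cancel, mul_one]
    have hN2 : nm σ (sc c⁻¹ * t) = 1 := by
      rw [nm_sc_mul, nu_inv, hnc, hN', ← map_mul, inv_mul_cancel, map_one]
    obtain ⟨v, hv, hv'⟩ := borel_of_nm_one σ h hN2
    refine borel_of_vec σ hv (c := (c : E)) ?_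
    have h8 : (t : Matrix (Fin 2) (Fin 2) E) = (c : E) • ((sc c⁻¹ * t : GL (Fin 2) E) :
        Matrix (Fin 2) (Fin 2) E) := by
      have h9 : ((sc c⁻¹ * t : GL (Fin 2) E) : Matrix (Fin 2) (Fin 2) E) =
          ((c⁻¹ : Eˣ) : E) • (t : Matrix (Fin 2) (Fin 2) E) := by
        rw [Units.val_mul, coe_sc, smul_mul_assoc, one_mul]
      rw [h9, smul_smul, Units.mul_inv, one_smul]
    rw [h8, Matrix.smul_mulVec, hv']

end

end Fermat.Agent.LT.Tw
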