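import Mathlib
import Fermat.Agent.LT.Tw.Class

set_option autoImplicit false

/-!
# Kummer generators and quadratic extensions inside an algebraically closed field
-/

namespace Fermat.Agent.LT.Tw

open Matrix

section Kummer

variable {k E : Type*} [Field k] [Field E] [Algebra k E] {σ : E ≃ₐ[k] E}

theorem zeta_sum {ζ : k} (hζ : IsPrimitiveRoot ζ 3) : ζ * ζ + ζ + 1 = 0 := by
  have h := hζ.geom_sum_eq_zero (by norm_num)
  simp only [Finset.sum_range_succ, Finset.sum_range_zero, pow_zero, pow_one, zero_add] at h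
  linear_combination h

theorem zeta_cube {ζ : k} (hζ : IsPrimitiveRoot ζ 3) : ζ * ζ * ζ = 1 := by
  have := hζ.pow_eq_one
  linear_combination this

theorem three_ne {ζ : k} (hζ : IsPrimitiveRoot ζ 3) : (3 : k) ≠ 0 := by
  intro h3
  have h1 : ζ ≠ 1 := hζ.ne_one (by norm_num)
  have h2 : (ζ - 1) * (ζ - 1) = 0 := by
    have := zeta_sum hζ
    linear_combination this - ζ * h3
  exact h1 (sub_eq_zero.1 (mul_self_eq_zero.1 h2))

theorem exists_kummer_gen (h : Cyc3 σ) {ζ : k} (hζ : IsPrimitiveRoot ζ 3) :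
    ∃ α : E, α ≠ 0 ∧ σ α = algebraMap k E ζ * α := by
  obtain ⟨x, hx⟩ := exists_ne_zero σ h (a := 1) (b := algebraMap k E (ζ * ζ))
    (c := algebraMap k E ζ) one_ne_zero
  refine ⟨_, hx, ?_⟩
  have h3 : algebraMap k E ζ * algebraMap k E ζ * algebraMap k E ζ = 1 := by
    rw [← map_mul, ← map_mul, zeta_cube hζ, map_one]
  simp only [map_add, map_mul, AlgEquiv.commutes, h.cube, mul_one]
  linear_combination (-σ x) * h3

theorem exists_coeffs (h : Cyc3 σ) {ζ : k} (hζ : IsPrimitiveRoot ζ 3) {α : E} (hα0 : α ≠ 0)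
    (hα : σ α = algebraMap k E ζ * α) (e : E) :
    ∃ c0 c1 c2 : k, e = algebraMap k E c0 + algebraMap k E c1 * α + algebraMap k E c2 * (α * α) := by
  have h1 := zeta_sum hζ
  have h3 := zeta_cube hζ
  have H1 : algebraMap k E ζ * algebraMap k E ζ + algebraMap k E ζ + 1 = 0 := by
    rw [← map_mul, ← map_add, ← map_one (algebraMap k E), ← map_add, h1, map_zero]
  have H3 : algebraMap k E ζ * algebraMap k E ζ * algebraMap k E ζ = 1 := by
    rw [← map_mul, ← map_mul, h3, map_one]
  set z := algebraMap k E ζ with hz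
  have hz0 : z ≠ 0 := fun h0 => by rw [h0] at H3; simp at H3
  have hσz : σ z = z := σ.commutes _
  obtain ⟨c0, hc0⟩ := h.fix (e + σ e + σ (σ e)) (by
    simp only [map_add, h.cube]; ring)
  obtain ⟨c1, hc1⟩ := h.fix ((e + z * z * σ e + z * σ (σ e)) / α) (by
    rw [map_div₀, hα, div_eq_div_iff (mul_ne_zero hz0 hα0) hα0]
    simp only [map_add, map_mul, h.cube, hσz]
    linear_combination (-α * σ e) * H3)
  obtain ⟨c2, hc2⟩ := h.fix ((e + z * σ e + z * z * σ (σ e)) / (α * α)) (by
    rw [map_div₀, map_mul, hα, div_eq_div_iff (mul_ne_zero (mul_ne_zero hz0 hα0)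
      (mul_ne_zero hz0 hα0)) (mul_ne_zero hα0 hα0)]
    simp only [map_add, map_mul, h.cube, hσz]
    linear_combination (-(α * α) * (σ e + z * σ (σ e))) * H3)
  have h3' : (3 : E) ≠ 0 := by
    rw [← map_ofNat (algebraMap k E) 3]
    exact (map_ne_zero _).2 (three_ne hζ)
  refine ⟨c0 / 3, c1 / 3, c2 / 3, ?_⟩
  rw [map_div₀, map_div₀, map_div₀, hc0, hc1, hc2, map_ofNat]
  field_simp
  linear_combination (-(σ e + σ (σ e))) * H1

end Kummer

section Quad

variable {F Ω : Type*} [Field F] [Field Ω] (ι : F →+* Ω)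

/-- the subfield `ι(F)(a)`, `a` a root of an irreducible quadratic polynomial `X² - t X + d` -/
def quad (t d : F) (a : Ω) (hirr : ∀ x : F, x * x - t * x + d ≠ 0)
    (ha : a * a - ι t * a + ι d = 0) : Subfield Ω where
  carrier := {z | ∃ x y : F, z = ι x + ι y * a}
  one_mem' := ⟨1, 0, by simp⟩
  zero_mem' := ⟨0, 0, by simp⟩
  add_mem' := by
    rintro _ _ ⟨x, y, rfl⟩ ⟨x', y', rfl⟩
    exact ⟨x + x', y + y', by simp only [map_add]; ring⟩
  neg_mem' := by
    rintro _ ⟨x, y, rfl⟩
    exact ⟨-x, -y, by simp only [map_neg]; ring⟩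
  mul_mem' := by
    rintro _ _ ⟨x, y, rfl⟩ ⟨x', y', rfl⟩
    refine ⟨x * x' - y * y' * d, x * y' + x' * y + y * y' * t, ?_⟩
    simp only [map_add, map_mul, map_sub]
    linear_combination ι y * ι y' * ha
  inv_mem' := by
    rintro _ ⟨x, y, rfl⟩
    by_cases h0 : x = 0 ∧ y = 0
    · obtain ⟨rfl, rfl⟩ := h0
      exact ⟨0, 0, by simp⟩
    · have hn : x * x + x * y * t + y * y * d ≠ 0 := by
        intro hn
        by_cases hy : y = 0
        · subst hy
          exact h0 ⟨by simpa using hn, rfl⟩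
        · apply hirr (-x / y)
          field_simp
          linear_combination hn
      have hz : (ι x + ι y * a) * (ι (x + y * t) - ι y * a) = ι (x * x + x * y * t + y * y * d) := by
        simp only [map_add, map_mul]
        linear_combination (-ι y * ι y) * ha
      have hn' : ι (x * x + x * y * t + y * y * d) ≠ 0 := (map_ne_zero ι).2 hn
      refine ⟨(x + y * t) / (x * x + x * y * t + y * y * d), -y / (x * x + x * y * t + y * y * d),
        inv_eq_of_mul_eq_one_right ?_⟩
      rw [map_div₀, map_div₀, map_neg]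
      have e1 : ι (x + y * t) / ι (x * x + x * y * t + y * y * d) +
          -ι y / ι (x * x + x * y * t + y * y * d) * a =
          (ι (x + y * t) - ι y * a) / ι (x * x + x * y * t + y * y * d) := by ring
      rw [e1, mul_div_assoc', hz, div_self hn']

end Quad

end Fermat.Agent.LT.Tw
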