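import Mathlib
import Fermat.Agent.CFT.SymInst
import Fermat.Agent.LT.Tw.Kum

set_option autoImplicit false

/-!
# The Hasse norm theorem for cyclic cubic extensions, in terms of elements
-/

open NumberField IsDedekindDomain

namespace Fermat.Agent.LT.Tw

open Fermat.Agent.CFT
open Fermat.Agent.LocalF (sym sym_eq_zero_iff Z1_map_mul sym_apply mem_kerZ1 exists_eq_one)

local notation "Om" => AlgebraicClosure ℚ

theorem norm_of_sv {L : IntermediateField ℚ Om} [FiniteDimensional ℚ L] {ζ : Om}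
    (hζ : IsPrimitiveRoot ζ 3) (hζL : ζ ∈ L) {α : Om} (hα0 : α ≠ 0) (hα : α ∉ L) {δ x : Lˣ}
    (hδ : α ^ 3 = ((δ : L) : Om))
    (hsv : haveI : Fact (Nat.Prime 3) := ⟨Nat.prime_three⟩
      ∀ v : HeightOneSpectrum (𝓞 L), sv hζ hζL v (kp 3 L (Additive.ofMul δ))
      (kp 3 L (Additive.ofMul x)) = 0) :
    ∃ (g : Om ≃ₐ[ℚ] Om) (b : Om), g ∈ L.fixingSubgroup ∧ g α = ζ * α ∧
      (∀ g' ∈ L.fixingSubgroup, g' α = α → g' b = b) ∧ b * g b * g (g b) = ((x : L) : Om) := by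
  have : Fact (Nat.Prime 3) := ⟨Nat.prime_three⟩
  have hsym := hasseNorm hζ hζL (by norm_num) _ _ hsv
  have hfixα : ∀ g' : L.fixingSubgroup, g' • α ^ 3 = α ^ 3 := fun g' => by
    rw [hδ]; exact smul_coe_of_mem g' _
  have hκ0 : kum hζ hζL (kp 3 L (Additive.ofMul δ)) ≠ 0 := by
    intro h0
    rw [kum_kp, kumHom_eq_zero_iff] at h0
    obtain ⟨y, hy⟩ := h0
    have h1 : (((Additive.toMul y : Lˣ) : L) : Om) ^ 3 = ((δ : L) : Om) := by
      have := congrArg (fun z : Additive Lˣ => (((Additive.toMul z : Lˣ) : L) : Om)) hy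
      simpa using this
    set w : Om := (((Additive.toMul y : Lˣ) : L) : Om) with hw
    have hwL : w ∈ L := ((Additive.toMul y : Lˣ) : L).2
    have hw0 : w ≠ 0 := by simp [hw]
    have h2 : (α / w) ^ 3 = 1 := by
      rw [div_pow, hδ, ← h1, div_self (pow_ne_zero 3 hw0)]
    obtain ⟨i, -, hi⟩ := hζ.eq_pow_of_pow_eq_one h2
    apply hα
    have h3 : α = ζ ^ i * w := by rw [hi]; field_simp
    rw [h3]
    exact mul_mem (pow_mem hζL i) hwL
  obtain ⟨g, hg⟩ := exists_eq_one hκ0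
  have hκ : ∀ g' : L.fixingSubgroup,
      (kum hζ hζL (kp 3 L (Additive.ofMul δ)) : L.fixingSubgroup → ZMod 3) g' =
        kummer 3 ζ α g' := fun g' => kumHom_apply hζ hζL hδ g'
  rw [sym_eq_zero_iff] at hsym
  have hβeq : ((kum hζ hζL (kp 3 L (Additive.ofMul x)) : Z1 (LL L) (triv 3 L.fixingSubgroup)) :
        L.fixingSubgroup → ZMod 3) = kummer 3 ζ (root 3 (Additive.ofMul x)) := rfl
  rw [hβeq, cup_mem_B2_iff hζ (isGal_Om.restrict _) (mem_iff_fixed.1 hζL) (hdiv_Om (by norm_num))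
      (kum hζ hζL (kp 3 L (Additive.ofMul δ))).2.1 (Z1_map_mul _)
      (mem_kerZ1 (kum hζ hζL (kp 3 L (Additive.ofMul δ)))) hg
      (root_ne_zero _) (smul_root_pow _)] at hsym
  obtain ⟨b, hb1, hb2⟩ := hsym
  refine ⟨g, b, g.2, ?_, ?_, ?_⟩
  · have h1 := kummer_spec hζ hα0 (hfixα g)
    rw [← hκ, hg, show (1 : ZMod 3).val = 1 from rfl, pow_one] at h1
    exact h1
  · intro g' hg' hg'α
    refine hb1 ⟨g', hg'⟩ ?_
    rw [mem_kerZ1, hκ, kummer_of_fixed hζ hα0 hg'α]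
  · rw [root_pow] at hb2
    simp only [Finset.prod_range_succ, Finset.prod_range_zero, pow_zero, one_smul, one_mul,
      pow_one, pow_two, mul_smul] at hb2
    exact hb2

end Fermat.Agent.LT.Tw
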