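import Mathlib
import Fermat.Agent.LT.Tw.HasseN

set_option autoImplicit false
set_option linter.unusedSectionVars false

/-!
# Places of a number field below a place of `ℚ̄`, elements near `1` are local cubes
-/

open NumberField IsDedekindDomain
open scoped Pointwise

namespace Fermat.Agent.LT.Tw

open Fermat.Agent.Frob (below mem_below)

local notation "Om" => AlgebraicClosure ℚ

section Place

variable {F : Type*} [Field F] [NumberField F] (ι : F →+* Om)

theorem mem_nonunits_comap {A : ValuationSubring Om} {x : F} :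
    x ∈ (A.comap ι).nonunits ↔ ι x ∈ A.nonunits := by
  rw [ValuationSubring.mem_nonunits_iff_or, ValuationSubring.mem_nonunits_iff_or,
    ValuationSubring.mem_comap, map_inv₀, map_eq_zero]

theorem lies_comap {A : ValuationSubring Om} {ℓ : ℕ} (hA : A.LiesOverPrime ℓ) :
    (A.comap ι).LiesOverPrime ℓ := by
  change (ℓ : F) ∈ (A.comap ι).nonunits
  rw [mem_nonunits_comap, map_natCast]
  exact hA

/-- the place of `F` below `A`, along an embedding -/
noncomputable def pl {A : ValuationSubring Om} {ℓ : ℕ} (hℓ : ℓ.Prime) (hA : A.LiesOverPrime ℓ) :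
    HeightOneSpectrum (𝓞 F) where
  asIdeal := below (𝓞 F) (A.comap ι)
  isPrime := inferInstance
  ne_bot := by
    intro h
    have h1 : (ℓ : 𝓞 F) ∈ below (𝓞 F) (A.comap ι) :=
      Fermat.Agent.Frob.natCast_mem_below (lies_comap ι hA)
    rw [h, Ideal.mem_bot] at h1
    exact hℓ.ne_zero (by exact_mod_cast h1)

variable {ι} {A : ValuationSubring Om} {ℓ : ℕ} {hℓ : ℓ.Prime} {hA : A.LiesOverPrime ℓ}

theorem mem_pl {x : 𝓞 F} : x ∈ (pl ι hℓ hA).asIdeal ↔ ι (x : F) ∈ A.nonunits := by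
  change x ∈ below (𝓞 F) (A.comap ι) ↔ _
  rw [mem_below, mem_nonunits_comap]

theorem int_mem (x : 𝓞 F) : ι (x : F) ∈ A := by
  have h : (x : F) ∈ A.comap ι :=
    Fermat.Agent.Frob.mem_of_isIntegral _ ((Algebra.IsIntegral.isIntegral (R := ℤ) x).map
      ((algebraMap (𝓞 F) F).toIntAlgHom))
  exact h

theorem mem_of_val_le {x : F} (hx : (pl ι hℓ hA).valuation F x ≤ 1) : ι x ∈ A := by
  obtain ⟨n, d, hnd⟩ := HeightOneSpectrum.exists_primeCompl_mul_eq_of_integer _ x hx
  have hd : ι ((d : 𝓞 F) : F) ∉ A.nonunits := fun h => d.2 (mem_pl.2 h)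
  rw [ValuationSubring.mem_nonunits_iff_or, not_or, not_not] at hd
  have h1 : ι x = ι ((n : 𝓞 F) : F) * (ι ((d : 𝓞 F) : F))⁻¹ := by
    rw [eq_mul_inv_iff_mul_eq₀ hd.1, ← map_mul]
    exact congrArg ι hnd
  rw [h1]
  exact A.mul_mem _ _ (int_mem n) hd.2

theorem mem_nonunits_of_val_lt {x : F} (hx : (pl ι hℓ hA).valuation F x < 1) :
    ι x ∈ A.nonunits := by
  obtain ⟨n, d, hnd⟩ := HeightOneSpectrum.exists_primeCompl_mul_eq_of_integer _ x hx.le
  have hd : ι ((d : 𝓞 F) : F) ∉ A.nonunits := fun h => d.2 (mem_pl.2 h)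
  rw [ValuationSubring.mem_nonunits_iff_or, not_or, not_not] at hd
  have h1 : ι x = ι ((n : 𝓞 F) : F) * (ι ((d : 𝓞 F) : F))⁻¹ := by
    rw [eq_mul_inv_iff_mul_eq₀ hd.1, ← map_mul]
    exact congrArg ι hnd
  have hn : n ∈ (pl ι hℓ hA).asIdeal := by
    rw [← (pl ι hℓ hA).valuation_lt_one_iff_mem (K := F)]
    change (pl ι hℓ hA).valuation F (algebraMap (𝓞 F) F n) < 1
    rw [← hnd, map_mul]
    have h2 : (pl ι hℓ hA).valuation F (algebraMap (𝓞 F) F d) ≤ 1 :=
      HeightOneSpectrum.valuation_le_one _ _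
    exact mul_lt_one_of_lt_of_le hx h2
  rw [mem_pl] at hn
  rw [h1, ValuationSubring.mem_nonunits_iff, map_mul]
  exact mul_lt_one_of_lt_of_le ((ValuationSubring.mem_nonunits_iff _).1 hn)
    ((A.valuation_le_one_iff _).2 hd.2)

theorem val_lt_iff {x : F} : (pl ι hℓ hA).valuation F x < 1 ↔ ι x ∈ A.nonunits := by
  refine ⟨mem_nonunits_of_val_lt, fun h => ?_⟩
  by_contra hcon
  rw [not_lt] at hcon
  have hx0 : x ≠ 0 := by
    rintro rfl
    rw [map_zero] at hcon
    exact absurd hcon (not_le.2 zero_lt_one)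
  have h1 : (pl ι hℓ hA).valuation F x⁻¹ ≤ 1 := by
    rw [map_inv₀]
    exact inv_le_one_of_one_le₀ hcon
  have h2 := mem_of_val_le h1
  rw [map_inv₀] at h2
  rw [ValuationSubring.mem_nonunits_iff_or] at h
  rcases h with h | h
  · exact hx0 ((map_eq_zero ι).1 h)
  · exact h h2

end Place

section Near

variable {A : ValuationSubring Om}

/-- a root of a quadratic polynomial with topologically nilpotent coefficients -/
theorem root_nonunit {T D y : Om} (hT : T ∈ A.nonunits) (hD : D ∈ A.nonunits)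
    (hy : y * y - T * y + D = 0) : y ∈ A.nonunits := by
  rw [ValuationSubring.mem_nonunits_iff] at *
  by_contra hcon
  rw [not_lt] at hcon
  have h1 : A.valuation (y * y) ≤ max (A.valuation (T * y)) (A.valuation D) := by
    have : y * y = T * y - D := by linear_combination hy
    rw [this]
    exact Valuation.map_sub _ _ _
  have h2 : A.valuation (T * y) < A.valuation (y * y) := by
    rw [map_mul, map_mul]
    have h0 : 0 < A.valuation y := lt_of_lt_of_le zero_lt_one hcon
    exact mul_lt_mul_of_pos_right (lt_of_lt_of_le hT hcon) h0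
  have h3 : A.valuation D < A.valuation (y * y) := by
    rw [map_mul]
    exact lt_of_lt_of_le hD (one_le_mul hcon hcon)
  exact absurd h1 (not_le.2 (max_lt h2 h3))

theorem apply_mem_nonunits {u : Om ≃ₐ[ℚ] Om} (hu : u ∈ A.decompositionSubgroup ℚ) {x : Om} :
    u x ∈ A.nonunits ↔ x ∈ A.nonunits := by
  have hu1 : u • A = A := hu
  rw [ValuationSubring.mem_nonunits_iff_or, ValuationSubring.mem_nonunits_iff_or, map_eq_zero,
    ← map_inv₀]
  have : u x⁻¹ ∈ A ↔ x⁻¹ ∈ A := by
    conv_lhs => rw [← hu1]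
    exact ValuationSubring.smul_mem_pointwise_smul_iff
  rw [this]

/-- elements close to `1` are cubes in the decomposition field -/
theorem exists_cube {L : IntermediateField ℚ Om} {ζ : Om} (hζ : IsPrimitiveRoot ζ 3) (hζL : ζ ∈ L)
    {c : Om} (hc : (c - 1) / 27 ∈ A.nonunits) (hcL : c ∈ L) :
    ∃ y : Om, y ^ 3 = c ∧ ∀ u ∈ A.decompositionSubgroup ℚ ⊓ L.fixingSubgroup, u y = y := by
  have hs := zeta_sum hζ
  have h3 := zeta_cube hζ
  set v := A.valuation with hv
  have hζ1 : v ζ = 1 := by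
    have : v ζ ^ 3 = 1 := by rw [← map_pow, hζ.pow_eq_one, map_one]
    exact (pow_eq_one_iff_of_nonneg zero_le (by norm_num)).1 this
  have hint : v (ζ - 1) ≤ 1 := by
    refine (Valuation.map_sub _ _ _).trans ?_
    rw [hζ1, map_one, max_self]
  have h27 : v 27 = v (ζ - 1) ^ 6 := by
    have : (27 : Om) * (-1) = (ζ - 1) ^ 6 := by
      have h3' : ζ ^ 3 = 1 := hζ.pow_eq_one
      have : (ζ - 1) ^ 2 = -3 * ζ := by linear_combination hs
      calc (27 : Om) * (-1) = (-3 * ζ) ^ 3 := by rw [mul_pow, h3']; norm_num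
        _ = ((ζ - 1) ^ 2) ^ 3 := by rw [this]
        _ = _ := by ring
    rw [← map_pow, ← this, map_mul, Valuation.map_neg, map_one, mul_one]
  have h27' : v 27 ≤ v (ζ - 1) ^ 3 := by
    rw [h27]
    exact pow_le_pow_right_of_le_one' hint (by norm_num)
  have h27ne : (27 : Om) ≠ 0 := by norm_num
  have hζne : ζ - 1 ≠ 0 := sub_ne_zero.2 (hζ.ne_one (by norm_num))
  obtain ⟨y, hy⟩ := IsAlgClosed.exists_pow_nat_eq c (n := 3) (by norm_num)
  have hclt : v (c - 1) < v (ζ - 1) ^ 3 := by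
    have h4 : v ((c - 1) / 27) < 1 := (ValuationSubring.mem_nonunits_iff _).1 hc
    rw [map_div₀, div_lt_one₀ (zero_lt_iff.2 ((Valuation.ne_zero_iff _).2 h27ne))] at h4
    exact lt_of_lt_of_le h4 h27'
  have hprod : (y - 1) * (ζ * y - 1) * (ζ * ζ * y - 1) = c - 1 := by
    rw [← hy]
    linear_combination (y ^ 3 - y ^ 2) * h3 + (y - y ^ 2) * hs
  -- one of the factors is small
  have key : ∃ y : Om, y ^ 3 = c ∧ v (y - 1) < v (ζ - 1) := by
    by_contra hcon
    push Not at hcon
    have e1 := hcon y hy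
    have e2 := hcon (ζ * y) (by rw [mul_pow, hζ.pow_eq_one, one_mul, hy])
    have e3 := hcon (ζ * ζ * y) (by rw [mul_pow, mul_pow, hζ.pow_eq_one, one_mul, one_mul, hy])
    have : v (ζ - 1) ^ 3 ≤ v (c - 1) := by
      rw [← hprod, map_mul, map_mul, pow_succ, pow_two]
      exact mul_le_mul' (mul_le_mul' e1 e2) e3
    exact absurd hclt (not_lt.2 this)
  obtain ⟨y, hy, hlt⟩ := key
  refine ⟨y, hy, fun u hu => ?_⟩
  have huζ : u ζ = ζ := (IntermediateField.mem_fixingSubgroup_iff _ _).1 hu.2 ζ hζL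
  have huc : u c = c := (IntermediateField.mem_fixingSubgroup_iff _ _).1 hu.2 c hcL
  have hlt' : v (u y - 1) < v (ζ - 1) := by
    have h5 : (y - 1) / (ζ - 1) ∈ A.nonunits := by
      rw [ValuationSubring.mem_nonunits_iff, map_div₀,
        div_lt_one₀ (zero_lt_iff.2 ((Valuation.ne_zero_iff _).2 hζne))]
      exact hlt
    have h6 : u ((y - 1) / (ζ - 1)) ∈ A.nonunits := (apply_mem_nonunits hu.1).2 h5
    rw [map_div₀, map_sub, map_sub, map_one, huζ, ValuationSubring.mem_nonunits_iff, map_div₀,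
        div_lt_one₀ (zero_lt_iff.2 ((Valuation.ne_zero_iff _).2 hζne))] at h6
    exact h6
  have hy0 : y ≠ 0 := by
    rintro rfl
    rw [zero_sub, Valuation.map_neg, map_one] at hlt
    exact absurd hlt (not_lt.2 hint)
  have h7 : (u y / y) ^ 3 = 1 := by
    rw [div_pow, ← map_pow, hy, huc, div_self]
    rw [← hy]
    exact pow_ne_zero 3 hy0
  obtain ⟨i, hi3, hi⟩ := hζ.eq_pow_of_pow_eq_one h7
  have h8 : u y = ζ ^ i * y := by rw [hi]; field_simp
  have hdiff : v (u y - y) < v (ζ - 1) := by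
    have : u y - y = (u y - 1) - (y - 1) := by ring
    rw [this]
    exact lt_of_le_of_lt (Valuation.map_sub _ _ _) (max_lt hlt' hlt)
  have hvy : v y = 1 := by
    have h9 : v ((y - 1) + 1) = 1 := by
      rw [Valuation.map_add_eq_of_lt_right (v := v) (by rw [map_one]; exact lt_of_lt_of_le hlt hint), map_one]
    rwa [sub_add_cancel] at h9
  have hcase : i = 0 ∨ i = 1 ∨ i = 2 := by omega
  rcases hcase with rfl | rfl | rfl
  · rw [h8, pow_zero, one_mul]
  · exfalso
    rw [h8, pow_one, ← sub_one_mul, map_mul, hvy, mul_one] at hdiff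
    exact lt_irrefl _ hdiff
  · exfalso
    have h10 : ζ ^ 2 * y - y = (ζ - 1) * (-(ζ * ζ)) * y := by
      linear_combination y * h3
    rw [h8, h10, map_mul, map_mul, hvy, mul_one, Valuation.map_neg, map_mul, hζ1, mul_one,
      mul_one] at hdiff
    exact lt_irrefl _ hdiff

end Near

end Fermat.Agent.LT.Tw
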