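import Mathlib
import Fermat.Agent.LT.Tw.Local

set_option autoImplicit false

/-!
# Evaluation of the torus `E[γ]` at an eigenvalue
-/

namespace Fermat.Agent.LT.Tw

open Matrix

section

variable {F Ω : Type*} [Field F] [Field Ω] (ι : F →+* Ω)

/-- `b` is the eigenvalue of `M = x + yγ` attached to the eigenvalue `a` of `γ` -/
def Ev (γ : Matrix (Fin 2) (Fin 2) F) (a : Ω) (M : Matrix (Fin 2) (Fin 2) F) (b : Ω) : Prop :=
  ∃ x y : F, M = x • (1 : Matrix (Fin 2) (Fin 2) F) + y • γ ∧ b = ι x + ι y * a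

variable {ι} {γ : Matrix (Fin 2) (Fin 2) F} {a : Ω}

theorem Ev.of_comm (hγ : NS γ) {M : Matrix (Fin 2) (Fin 2) F} (h : γ * M = M * γ) :
    ∃ b, Ev ι γ a M b := by
  obtain ⟨x, y, h⟩ := commutant hγ h
  exact ⟨_, x, y, h, rfl⟩

theorem Ev.smul_one (c : F) : Ev ι γ a (c • (1 : Matrix (Fin 2) (Fin 2) F)) (ι c) :=
  ⟨c, 0, by simp, by simp⟩

theorem Ev.one : Ev ι γ a 1 1 := ⟨1, 0, by simp, by simp⟩

theorem Ev.self : Ev ι γ a γ a := ⟨0, 1, by simp, by simp⟩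

theorem Ev.sub {M M' : Matrix (Fin 2) (Fin 2) F} {b b' : Ω} (h : Ev ι γ a M b)
    (h' : Ev ι γ a M' b') : Ev ι γ a (M - M') (b - b') := by
  obtain ⟨x, y, rfl, rfl⟩ := h
  obtain ⟨x', y', rfl, rfl⟩ := h'
  refine ⟨x - x', y - y', ?_, ?_⟩
  · rw [sub_smul, sub_smul]; abel
  · rw [map_sub, map_sub]; ring

theorem Ev.mul (ha : a * a - ι γ.trace * a + ι γ.det = 0) {M M' : Matrix (Fin 2) (Fin 2) F}
    {b b' : Ω} (h : Ev ι γ a M b) (h' : Ev ι γ a M' b') : Ev ι γ a (M * M') (b * b') := by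
  obtain ⟨x, y, rfl, rfl⟩ := h
  obtain ⟨x', y', rfl, rfl⟩ := h'
  refine ⟨x * x' - y * y' * γ.det, x * y' + x' * y + y * y' * γ.trace, ?_, ?_⟩
  · rw [add_mul, mul_add, mul_add, smul_mul_smul_comm, smul_mul_smul_comm, smul_mul_smul_comm,
      smul_mul_smul_comm, one_mul, one_mul, mul_one, cayley]
    ext i j
    simp only [Matrix.add_apply, Matrix.smul_apply, Matrix.sub_apply, smul_eq_mul]
    ring
  · simp only [map_add, map_mul, map_sub]
    linear_combination ι y * ι y' * ha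

theorem Ev.unique (hγ : NS γ) {M : Matrix (Fin 2) (Fin 2) F} {b b' : Ω} (h : Ev ι γ a M b)
    (h' : Ev ι γ a M b') : b = b' := by
  obtain ⟨x, y, h1, rfl⟩ := h
  obtain ⟨x', y', h2, rfl⟩ := h'
  have h3 : (y - y') • γ = (x' - x) • (1 : Matrix (Fin 2) (Fin 2) F) := by
    rw [sub_smul, sub_smul, sub_eq_sub_iff_add_eq_add, add_comm, ← h1, h2]
  by_cases hy : y = y'
  · subst hy
    rw [h1] at h2
    have h4 := add_right_cancel h2
    have h5 : x = x' := by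
      have := congrFun (congrFun h4 0) 0
      simpa using this
    rw [h5]
  · exfalso
    apply hγ ((y - y')⁻¹ * (x' - x))
    rw [mul_smul, ← h3, smul_smul, inv_mul_cancel₀ (sub_ne_zero.2 hy), one_smul]

/-- `1, a` are independent when `γ` is elliptic -/
theorem lin_indep (hγ : Ell γ) (ha : a * a - ι γ.trace * a + ι γ.det = 0) {x y : F}
    (h : ι x + ι y * a = 0) : x = 0 ∧ y = 0 := by
  apply hγ
  apply ι.injective
  rw [map_zero]
  simp only [map_add, map_mul]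
  linear_combination (ι x + ι γ.trace * ι y - ι y * a) * h + ι y * ι y * ha

theorem Ev.inj (hγ : Ell γ) (ha : a * a - ι γ.trace * a + ι γ.det = 0)
    {M M' : Matrix (Fin 2) (Fin 2) F} {b : Ω} (h : Ev ι γ a M b) (h' : Ev ι γ a M' b) :
    M = M' := by
  obtain ⟨x, y, rfl, h1⟩ := h
  obtain ⟨x', y', rfl, h2⟩ := h'
  obtain ⟨h3, h4⟩ := lin_indep (x := x - x') (y := y - y') hγ ha (by
    rw [map_sub, map_sub]; linear_combination h2 - h1)
  rw [sub_eq_zero.1 h3, sub_eq_zero.1 h4]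

theorem Ev.det_ne (hγ : Ell γ) {M : Matrix (Fin 2) (Fin 2) F} {b : Ω} (h : Ev ι γ a M b)
    (hb : b ≠ 0) : M.det ≠ 0 := by
  obtain ⟨x, y, rfl, rfl⟩ := h
  apply hγ.det_ne
  intro h0
  apply hb
  have h1 : Ev ι γ a (0 : Matrix (Fin 2) (Fin 2) F) (ι x + ι y * a) := ⟨x, y, h0.symm, rfl⟩
  have h2 : Ev ι γ a (0 : Matrix (Fin 2) (Fin 2) F) 0 := ⟨0, 0, by simp, by simp⟩
  exact h1.unique hγ.ns h2

theorem Ev.ne_zero (hγ : Ell γ) (ha : a * a - ι γ.trace * a + ι γ.det = 0)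
    {M : Matrix (Fin 2) (Fin 2) F} {b : Ω} (h : Ev ι γ a M b) (hM : M ≠ 0) : b ≠ 0 := by
  rintro rfl
  have h2 : Ev ι γ a (0 : Matrix (Fin 2) (Fin 2) F) 0 := ⟨0, 0, by simp, by simp⟩
  exact hM (h.inj hγ ha h2)

/-- eigenvalues are roots of the characteristic polynomial -/
theorem Ev.charpoly (ha : a * a - ι γ.trace * a + ι γ.det = 0)
    {M : Matrix (Fin 2) (Fin 2) F} {b : Ω} (h : Ev ι γ a M b) :
    b * b - ι M.trace * b + ι M.det = 0 := by
  obtain ⟨x, y, rfl, rfl⟩ := h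
  rw [det_lin, trace_lin]
  simp only [map_add, map_mul, map_ofNat]
  linear_combination ι y * ι y * ha

end

end Fermat.Agent.LT.Tw
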