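import Mathlib
import Fermat.Agent.LT.Tw.Ev

set_option autoImplicit false
set_option linter.unusedSectionVars false

/-!
# Global norms from local conditions
-/

open NumberField IsDedekindDomain Matrix
open scoped Pointwise

namespace Fermat.Agent.LT.Tw

open Fermat.Agent.CFT
open Fermat.Agent.LocalF (sym sym_eq_zero_iff Z1_map_mul sym_apply mem_kerZ1 exists_eq_one sym_skew)

local notation "Om" => AlgebraicClosure ℚ

section Symbols

variable {L : IntermediateField ℚ Om} [FiniteDimensional ℚ L] {ζ : Om}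
    (hζ : IsPrimitiveRoot ζ 3) (hζL : ζ ∈ L)

local instance fact3 : Fact (Nat.Prime 3) := ⟨Nat.prime_three⟩

/-- global norms have trivial symbols -/
theorem sv_norm {α : Om} (hα0 : α ≠ 0) {δ x : Lˣ} (hδ : α ^ 3 = ((δ : L) : Om))
    {g : Om ≃ₐ[ℚ] Om} (hg : g ∈ L.fixingSubgroup) (hgα : g α = ζ * α) {b : Om}
    (hb : ∀ g' ∈ L.fixingSubgroup, g' α = α → g' b = b) (hx : b * g b * g (g b) = ((x : L) : Om))
    (v : HeightOneSpectrum (𝓞 L)) :
    sv hζ hζL v (kp 3 L (Additive.ofMul δ)) (kp 3 L (Additive.ofMul x)) = 0 := by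
  have hfixα : ∀ g' : L.fixingSubgroup, g' • α ^ 3 = α ^ 3 := fun g' => by
    rw [hδ]; exact smul_coe_of_mem g' _
  have hκ : ∀ g' : L.fixingSubgroup,
      (kum hζ hζL (kp 3 L (Additive.ofMul δ)) : L.fixingSubgroup → ZMod 3) g' =
        kummer 3 ζ α g' := fun g' => kumHom_apply hζ hζL hδ g'
  have hsym : sym (LL L) 3 (kum hζ hζL (kp 3 L (Additive.ofMul δ)))
      (kum hζ hζL (kp 3 L (Additive.ofMul x))) = 0 := by
    rw [sym_eq_zero_iff]
    have hβeq : ((kum hζ hζL (kp 3 L (Additive.ofMul x)) : Z1 (LL L) (triv 3 L.fixingSubgroup)) :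
          L.fixingSubgroup → ZMod 3) = kummer 3 ζ (root 3 (Additive.ofMul x)) := rfl
    have hg1 : (kum hζ hζL (kp 3 L (Additive.ofMul δ)) : L.fixingSubgroup → ZMod 3) ⟨g, hg⟩ = 1 := by
      rw [hκ]
      have : (⟨g, hg⟩ : L.fixingSubgroup) • α = ζ ^ 1 * α := by rw [pow_one]; exact hgα
      simpa using kummer_unique hζ hα0 this
    rw [hβeq, cup_mem_B2_iff hζ (isGal_Om.restrict _) (mem_iff_fixed.1 hζL) (hdiv_Om (by norm_num))
      (kum hζ hζL (kp 3 L (Additive.ofMul δ))).2.1 (Z1_map_mul _)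
      (mem_kerZ1 (kum hζ hζL (kp 3 L (Additive.ofMul δ)))) hg1
      (root_ne_zero _) (smul_root_pow _)]
    refine ⟨b, ?_, ?_⟩
    · intro g' hg'
      rw [mem_kerZ1, hκ] at hg'
      exact hb g' g'.2 ((kummer_eq_zero_iff hζ hα0 (hfixα g')).1 hg')
    · rw [root_pow]
      simp only [Finset.prod_range_succ, Finset.prod_range_zero, pow_zero, one_smul, one_mul,
        pow_one, pow_two, mul_smul]
      exact hx
  rw [sv_apply, hsym, map_zero]

/-- local cubes have trivial symbols -/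
theorem sv_cube_right {δ c : Lˣ} (v : HeightOneSpectrum (𝓞 L))
    (hc : ∃ y : Om, y ^ 3 = ((c : L) : Om) ∧ ∀ u ∈ (Av v).decompositionSubgroup ℚ ⊓ L.fixingSubgroup, u y = y) :
    sv hζ hζL v (kp 3 L (Additive.ofMul δ)) (kp 3 L (Additive.ofMul c)) = 0 := by
  have h1 : c ∈ Loc.PA 3 (Av v) L := hc
  rw [mem_PA_iff_van hζ hζL, ← sv_eq_zero_iff_van] at h1
  have h2 : sv hζ hζL v (kp 3 L (Additive.ofMul c)) (kp 3 L (Additive.ofMul δ)) = 0 := by
    rw [h1]; rfl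
  rw [sv_apply] at h2 ⊢
  rw [sym_skew, map_neg, h2, neg_zero]

theorem sv_cube_left {δ x : Lˣ} (v : HeightOneSpectrum (𝓞 L))
    (hc : ∃ y : Om, y ^ 3 = ((δ : L) : Om) ∧ ∀ u ∈ (Av v).decompositionSubgroup ℚ ⊓ L.fixingSubgroup, u y = y) :
    sv hζ hζL v (kp 3 L (Additive.ofMul δ)) (kp 3 L (Additive.ofMul x)) = 0 := by
  have h1 : δ ∈ Loc.PA 3 (Av v) L := hc
  rw [mem_PA_iff_van hζ hζL, ← sv_eq_zero_iff_van] at h1
  rw [h1]; rfl

include hζ hζL in
theorem exists_gen {α : Om} (hα0 : α ≠ 0) (hα : α ∉ L) {δ : Lˣ} (hδ : α ^ 3 = ((δ : L) : Om)) :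
    ∃ g ∈ L.fixingSubgroup, g α = ζ * α := by
  have hfixα : ∀ g' : L.fixingSubgroup, g' • α ^ 3 = α ^ 3 := fun g' => by
    rw [hδ]; exact smul_coe_of_mem g' _
  have h0 : ∃ g : L.fixingSubgroup, kummer 3 ζ α g ≠ 0 := by
    by_contra hcon
    push Not at hcon
    apply hα
    rw [mem_iff_fixed]
    intro g
    exact (kummer_eq_zero_iff hζ hα0 (hfixα g)).1 (hcon g)
  obtain ⟨g, hg⟩ := h0
  have hmul : ∀ g h : L.fixingSubgroup, kummer 3 ζ α (g * h) = kummer 3 ζ α g + kummer 3 ζ α h :=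
    fun g h => kummer_map_mul hζ hα0 (mem_iff_fixed.1 hζL g) (hfixα g) (hfixα h)
  have h3 : ∀ z : ZMod 3, z ≠ 0 → z = 1 ∨ z + z = 1 := by decide
  have h1 : ∃ g : L.fixingSubgroup, kummer 3 ζ α g = 1 := by
    rcases h3 _ hg with h | h
    · exact ⟨g, h⟩
    · exact ⟨g * g, by rw [hmul, h]⟩
  obtain ⟨g, hg⟩ := h1
  refine ⟨g, g.2, ?_⟩
  have h1 := kummer_spec hζ hα0 (hfixα g)
  rw [hg, show (1 : ZMod 3).val = 1 from rfl, pow_one] at h1
  exact h1

end Symbols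

section

variable {k E : Type*} [Field k] [NumberField k] [Field E] [NumberField E] [Algebra k E]

/-- no place of `E` above `v` is fixed by `σ` -/
def LocSplit (σ : E ≃ₐ[k] E) (v : HeightOneSpectrum (𝓞 k)) : Prop :=
  ∀ w : HeightOneSpectrum (𝓞 E), w.asIdeal.comap (algebraMap (𝓞 k) (𝓞 E)) = v.asIdeal →
    ∃ x : E, w.valuation E x < 1 ∧ ¬ w.valuation E (σ x) < 1

/-- `γ` is close to a norm up to the centre, at `v` -/
def LocNear (σ : E ≃ₐ[k] E) (v : HeightOneSpectrum (𝓞 k)) (γ : GL (Fin 2) k) : Prop :=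
  ∃ (t : GL (Fin 2) E) (z : kˣ) (C : GL (Fin 2) k), t ∈ tor γ ∧ C * γ = γ * C ∧
    bc γ = sc (bu z) * nm σ t * bc C ∧
    ∀ i j, v.valuation k (((C : Matrix (Fin 2) (Fin 2) k) - 1) i j) < v.valuation k 27

/-- auxiliary data for the global norm theorem -/
structure Dat (σ : E ≃ₐ[k] E) (γ : GL (Fin 2) k) where
  cyc : Cyc3 σ
  ell : Ell (γ : Matrix (Fin 2) (Fin 2) k)
  ζ : k
  hζ : IsPrimitiveRoot ζ 3
  α : E
  hα0 : α ≠ 0
  hα : σ α = algebraMap k E ζ * α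
  ι : E →+* Om
  a : Om
  ha : a * a - ι (algebraMap k E (γ : Matrix (Fin 2) (Fin 2) k).trace) * a +
    ι (algebraMap k E (γ : Matrix (Fin 2) (Fin 2) k).det) = 0

namespace Dat

variable {σ : E ≃ₐ[k] E} {γ : GL (Fin 2) k} (D : Dat σ γ)

/-- the embedding of `k` -/
noncomputable def κ : k →+* Om := D.ι.comp (algebraMap k E)

theorem κ_apply (x : k) : D.κ x = D.ι (algebraMap k E x) := rfl

theorem exists_dat (h : Cyc3 σ) (hγ : Ell (γ : Matrix (Fin 2) (Fin 2) k)) {ζ : k}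
    (hζ : IsPrimitiveRoot ζ 3) : Nonempty (Dat σ γ) := by
  obtain ⟨α, hα0, hα⟩ := exists_kummer_gen h hζ
  let ι : E →ₐ[ℚ] Om := IsAlgClosed.lift
  set t : Om := ι (algebraMap k E (γ : Matrix (Fin 2) (Fin 2) k).trace)
  set d : Om := ι (algebraMap k E (γ : Matrix (Fin 2) (Fin 2) k).det)
  have hex : ∃ a : Om, a * a - t * a + d = 0 := by
    obtain ⟨s, hs⟩ := IsAlgClosed.exists_pow_nat_eq (t * t - 4 * d) (n := 2) (by norm_num)
    refine ⟨(t + s) / 2, ?_⟩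
    field_simp
    linear_combination hs
  obtain ⟨a, ha⟩ := hex
  exact ⟨⟨h, hγ, ζ, hζ, α, hα0, hα, (ι : E →+* Om), a, ha⟩⟩

include D in
theorem irrk (x : k) : x * x - (γ : Matrix (Fin 2) (Fin 2) k).trace * x +
    (γ : Matrix (Fin 2) (Fin 2) k).det ≠ 0 := (ell_iff _).1 D.ell x

/-- the quadratic extension `k(a)` -/
noncomputable def L : IntermediateField ℚ Om :=
  Subfield.toIntermediateField (quad D.κ _ _ D.a D.irrk D.ha)
    (fun q => ⟨(q : k), 0, by rw [map_ratCast]; simp⟩)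

theorem mem_L {z : Om} : z ∈ D.L ↔ ∃ x y : k, z = D.κ x + D.κ y * D.a := Iff.rfl

theorem κ_mem (x : k) : D.κ x ∈ D.L := ⟨x, 0, by simp⟩
theorem a_mem : D.a ∈ D.L := ⟨0, 1, by simp⟩

instance : FiniteDimensional ℚ D.L := by
  let f : (k × k) →ₗ[ℚ] D.L :=
    { toFun := fun p => ⟨D.κ p.1 + D.κ p.2 * D.a, p.1, p.2, rfl⟩
      map_add' := fun p q => by
        apply Subtype.ext
        change D.κ (p.1 + q.1) + D.κ (p.2 + q.2) * D.a = _
        rw [map_add, map_add]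
        change _ = (D.κ p.1 + D.κ p.2 * D.a) + (D.κ q.1 + D.κ q.2 * D.a)
        ring
      map_smul' := fun c p => by
        apply Subtype.ext
        change D.κ (c • p.1) + D.κ (c • p.2) * D.a = _
        rw [Rat.smul_def, Rat.smul_def, map_mul, map_mul, map_ratCast]
        change _ = ((c • (⟨D.κ p.1 + D.κ p.2 * D.a, p.1, p.2, rfl⟩ : D.L) : D.L) : Om)
        rw [IntermediateField.coe_smul, Rat.smul_def]
        ring }
  refine Module.Finite.of_surjective f ?_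
  rintro ⟨z, x, y, rfl⟩
  exact ⟨(x, y), rfl⟩

include D in
theorem bc_ell : Ell (bc (E := E) γ : Matrix (Fin 2) (Fin 2) E) := ell_bc σ D.cyc D.ell

theorem ha' : D.a * D.a - D.ι (bc (E := E) γ : Matrix (Fin 2) (Fin 2) E).trace * D.a +
    D.ι (bc (E := E) γ : Matrix (Fin 2) (Fin 2) E).det = 0 := by
  rw [coe_bc, trace_map', det_map']
  exact D.ha

/-- the field `E(a)` -/
noncomputable def LE : IntermediateField ℚ Om :=
  Subfield.toIntermediateField (quad D.ι _ _ D.a ((ell_iff _).1 D.bc_ell) D.ha')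
    (fun q => ⟨(q : E), 0, by rw [map_ratCast]; simp⟩)

theorem mem_LE {z : Om} : z ∈ D.LE ↔ ∃ x y : E, z = D.ι x + D.ι y * D.a := Iff.rfl

theorem α_notMem : D.ι D.α ∉ D.L := by
  rintro ⟨x, y, h⟩
  obtain ⟨h1, h2⟩ := lin_indep (x := algebraMap k E x - D.α) (y := algebraMap k E y) D.bc_ell
    D.ha' (by
      rw [map_sub]
      change D.κ x - D.ι D.α + D.κ y * D.a = 0
      rw [h]; ring)
  rw [sub_eq_zero] at h1
  have h3 := D.hα
  rw [← h1, AlgEquiv.commutes, h1] at h3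
  have h4 : algebraMap k E D.ζ = 1 := by
    have h5 : (algebraMap k E D.ζ - 1) * D.α = 0 := by linear_combination -h3
    exact sub_eq_zero.1 ((mul_eq_zero.1 h5).resolve_right D.hα0)
  have h5 : D.ζ = 1 := (algebraMap k E).injective (by rw [h4, map_one])
  exact D.hζ.ne_one (by norm_num) h5

/-- an automorphism over `κ(k)` which maps `α` to `ζ^j α` acts on `E` through `σ^j` -/
theorem act {u : Om ≃ₐ[ℚ] Om} (hu : ∀ x : k, u (D.κ x) = D.κ x) {s : E ≃ₐ[k] E}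
    (hα : u (D.ι D.α) = D.ι (s D.α)) (e : E) : u (D.ι e) = D.ι (s e) := by
  obtain ⟨c0, c1, c2, rfl⟩ := exists_coeffs D.cyc D.hζ D.hα0 D.hα e
  have h0 : ∀ c : k, u (D.ι (algebraMap k E c)) = D.ι (algebraMap k E c) := hu
  simp only [map_add, map_mul, AlgEquiv.commutes, h0, hα]

theorem hζ' : IsPrimitiveRoot (D.κ D.ζ) 3 := D.hζ.map_of_injective D.κ.injective

theorem exists_δ : ∃ δ : k, algebraMap k E δ = D.α ^ 3 := by
  apply D.cyc.fix
  rw [map_pow, D.hα, mul_pow, ← map_pow, D.hζ.pow_eq_one, map_one, one_mul]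

/-- fixing `L` implies fixing `κ(k)` and `a` -/
theorem fix_κ {u : Om ≃ₐ[ℚ] Om} (hu : u ∈ D.L.fixingSubgroup) (x : k) : u (D.κ x) = D.κ x :=
  (IntermediateField.mem_fixingSubgroup_iff _ _).1 hu _ (D.κ_mem x)

theorem fix_a {u : Om ≃ₐ[ℚ] Om} (hu : u ∈ D.L.fixingSubgroup) : u D.a = D.a :=
  (IntermediateField.mem_fixingSubgroup_iff _ _).1 hu _ D.a_mem

/-- powers -/
theorem exists_pow_act {u : Om ≃ₐ[ℚ] Om} (hu : u ∈ D.L.fixingSubgroup) :
    u (D.ι D.α) = D.ι D.α ∨ u (D.ι D.α) = D.ι (σ D.α) ∨ u (D.ι D.α) = D.ι (σ (σ D.α)) := by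
  obtain ⟨δ, hδ⟩ := D.exists_δ
  have hfix : u (D.ι D.α) ^ 3 = D.ι D.α ^ 3 := by
    rw [← map_pow, ← map_pow, ← hδ]
    exact D.fix_κ hu δ
  have hne : D.ι D.α ≠ 0 := (map_ne_zero _).2 D.hα0
  have h1 : (u (D.ι D.α) / D.ι D.α) ^ 3 = 1 := by
    rw [div_pow, hfix, div_self (pow_ne_zero 3 hne)]
  obtain ⟨i, hi3, hi⟩ := D.hζ'.eq_pow_of_pow_eq_one h1
  have h2 : u (D.ι D.α) = D.κ D.ζ ^ i * D.ι D.α := by rw [hi]; field_simp
  have hcase : i = 0 ∨ i = 1 ∨ i = 2 := by omega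
  rcases hcase with rfl | rfl | rfl
  · left; rw [h2, pow_zero, one_mul]
  · right; left; rw [h2, pow_one, D.hα, map_mul]; rfl
  · right; right
    rw [h2, D.hα, map_mul, D.hα, AlgEquiv.commutes, ← mul_assoc, map_mul, map_mul, pow_two]
    rfl

/-- at a place split in `E`, `α` is fixed by the decomposition group -/
theorem split_case (v : HeightOneSpectrum (𝓞 D.L))
    (hs : LocSplit σ (pl D.κ (lv_prime v) (Av_lies v))) {u : Om ≃ₐ[ℚ] Om}
    (hu : u ∈ (Av v).decompositionSubgroup ℚ ⊓ D.L.fixingSubgroup) :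
    u (D.ι D.α) = D.ι D.α := by
  obtain ⟨x, hx1, hx2⟩ := hs (pl D.ι (lv_prime v) (Av_lies v)) (by
    ext y
    rw [Ideal.mem_comap, mem_pl, mem_pl]
    rfl)
  rw [val_lt_iff] at hx1 hx2
  -- `u ∘ ι = ι ∘ σ` is impossible
  have key : ∀ u' : Om ≃ₐ[ℚ] Om, u' ∈ (Av v).decompositionSubgroup ℚ ⊓ D.L.fixingSubgroup →
      u' (D.ι D.α) ≠ D.ι (σ D.α) := by
    intro u' hu' h
    apply hx2
    rw [← D.act (D.fix_κ hu'.2) h, apply_mem_nonunits hu'.1]
    exact hx1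
  rcases D.exists_pow_act hu.2 with h | h | h
  · exact h
  · exact absurd h (key u hu)
  · exfalso
    refine key (u * u) (mul_mem hu hu) ?_
    have h1 := D.act (s := σ * σ) (D.fix_κ hu.2) h
    rw [AlgEquiv.mul_apply, h]
    have h2 := h1 (σ (σ D.α))
    rw [h2]
    change D.ι (σ (σ (σ (σ D.α)))) = _
    rw [D.cyc.cube]

/-- `27` divides: entries close to zero give an eigenvalue close to zero -/
theorem near_eig (v : HeightOneSpectrum (𝓞 D.L)) {B : Matrix (Fin 2) (Fin 2) k} {b : Om}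
    (hB : Ev D.κ (γ : Matrix (Fin 2) (Fin 2) k) D.a B b)
    (h : ∀ i j, (pl D.κ (lv_prime v) (Av_lies v)).valuation k (B i j) <
      (pl D.κ (lv_prime v) (Av_lies v)).valuation k 27) : b / 27 ∈ (Av v).nonunits := by
  have h27 : (27 : k) ≠ 0 := by norm_num
  have h27' : (27 : Om) ≠ 0 := by norm_num
  have hv27 : (pl D.κ (lv_prime v) (Av_lies v)).valuation k 27 ≠ 0 :=
    (Valuation.ne_zero_iff _).2 h27
  have hent : ∀ i j, D.κ (B i j / 27) ∈ (Av v).nonunits := by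
    intro i j
    apply mem_nonunits_of_val_lt (hℓ := lv_prime v) (hA := Av_lies v)
    rw [map_div₀, div_lt_one₀ (zero_lt_iff.2 hv27)]
    exact h i j
  have hc := hB.charpoly D.ha
  refine root_nonunit (T := D.κ (B 0 0 / 27) + D.κ (B 1 1 / 27))
    (D := D.κ (B 0 0 / 27) * D.κ (B 1 1 / 27) - D.κ (B 0 1 / 27) * D.κ (B 1 0 / 27)) ?_ ?_ ?_
  · exact (Av v).nonunits.add_mem (hent 0 0) (hent 1 1)
  · exact (Av v).nonunits.sub_mem ((Av v).nonunits.mul_mem (hent 0 0) (hent 1 1))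
      ((Av v).nonunits.mul_mem (hent 0 1) (hent 1 0))
  · rw [Matrix.trace_fin_two, Matrix.det_fin_two] at hc
    simp only [map_add, map_mul, map_sub, map_div₀, map_ofNat] at hc ⊢
    field_simp
    linear_combination hc

end Dat

end

end Fermat.Agent.LT.Tw
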