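import Mathlib
import Fermat.Agent.LT.Tw.Glob

set_option autoImplicit false
set_option linter.unusedSectionVars false

/-!
# The global norm theorem
-/

open NumberField IsDedekindDomain Matrix
open scoped Pointwise

namespace Fermat.Agent.LT.Tw

open Fermat.Agent.CFT

local notation "Om" => AlgebraicClosure ℚ

variable {k E : Type*} [Field k] [NumberField k] [Field E] [NumberField E] [Algebra k E]

namespace Dat

variable {σ : E ≃ₐ[k] E} {γ : GL (Fin 2) k} (D : Dat σ γ)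

local instance fact3' : Fact (Nat.Prime 3) := ⟨Nat.prime_three⟩

theorem ev_sg {g : Om ≃ₐ[ℚ] Om} (hg : ∀ e, g (D.ι e) = D.ι (σ e)) (ha : g D.a = D.a)
    {t : GL (Fin 2) E} {b : Om}
    (h : Ev D.ι (bc (E := E) γ : Matrix (Fin 2) (Fin 2) E) D.a (t : Matrix (Fin 2) (Fin 2) E) b) :
    Ev D.ι (bc (E := E) γ : Matrix (Fin 2) (Fin 2) E) D.a (sg σ t : Matrix (Fin 2) (Fin 2) E)
      (g b) := by
  obtain ⟨x, y, h1, rfl⟩ := h
  refine ⟨σ x, σ y, ?_, ?_⟩
  · rw [coe_sg, h1, coe_lin]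
  · rw [map_add, map_mul, hg, hg, ha]

theorem ev_nm {g : Om ≃ₐ[ℚ] Om} (hg : ∀ e, g (D.ι e) = D.ι (σ e)) (ha : g D.a = D.a)
    {t : GL (Fin 2) E} {b : Om}
    (h : Ev D.ι (bc (E := E) γ : Matrix (Fin 2) (Fin 2) E) D.a (t : Matrix (Fin 2) (Fin 2) E) b) :
    Ev D.ι (bc (E := E) γ : Matrix (Fin 2) (Fin 2) E) D.a (nm σ t : Matrix (Fin 2) (Fin 2) E)
      (b * g b * g (g b)) := by
  have h1 := D.ev_sg hg ha h
  have h2 := D.ev_sg hg ha h1
  exact (h.mul D.ha' h1).mul D.ha' h2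

theorem ev_bc {C : GL (Fin 2) k} {c : Om}
    (h : Ev D.κ (γ : Matrix (Fin 2) (Fin 2) k) D.a (C : Matrix (Fin 2) (Fin 2) k) c) :
    Ev D.ι (bc (E := E) γ : Matrix (Fin 2) (Fin 2) E) D.a (bc (E := E) C : Matrix (Fin 2) (Fin 2) E)
      c := by
  obtain ⟨x, y, h1, rfl⟩ := h
  refine ⟨algebraMap k E x, algebraMap k E y, ?_, rfl⟩
  rw [coe_bc, h1, coe_bc]
  ext i j
  fin_cases i <;> fin_cases j <;> simp [-algebraMap_smul]

theorem isUnit_det' {F : Type*} [Field F] (g : GL (Fin 2) F) :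
    (g : Matrix (Fin 2) (Fin 2) F).det ≠ 0 :=
  ((Matrix.isUnit_iff_isUnit_det _).1 g.isUnit).ne_zero

theorem kp_mul' {L : IntermediateField ℚ Om} (a b : Lˣ) :
    kp 3 L (Additive.ofMul (a * b)) = kp 3 L (Additive.ofMul a) + kp 3 L (Additive.ofMul b) := by
  rw [ofMul_mul, map_add]

theorem kp_cube {L : IntermediateField ℚ Om} (a : Lˣ) :
    kp 3 L (Additive.ofMul (a * a * a)) = 0 := by
  rw [kp_eq_zero_iff]
  refine ⟨Additive.ofMul a, ?_⟩
  rw [ofMul_mul, ofMul_mul, succ_nsmul, succ_nsmul, one_nsmul]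

/-- the symbol of `det γ · a` vanishes at the places where `γ` is close to a norm -/
theorem sv_near {δL xL : D.Lˣ} (hδL : D.ι D.α ^ 3 = ((δL : D.L) : Om))
    (hxL : ((xL : D.L) : Om) = D.κ (γ : Matrix (Fin 2) (Fin 2) k).det * D.a)
    {g : Om ≃ₐ[ℚ] Om} (hg : g ∈ D.L.fixingSubgroup) (hgα : g (D.ι D.α) = D.κ D.ζ * D.ι D.α)
    (v : HeightOneSpectrum (𝓞 D.L)) (h : LocNear σ (pl D.κ (lv_prime v) (Av_lies v)) γ) :
    sv D.hζ' (D.κ_mem D.ζ) v (kp 3 D.L (Additive.ofMul δL)) (kp 3 D.L (Additive.ofMul xL)) = 0 := by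
  have hα0 : D.ι D.α ≠ 0 := (map_ne_zero _).2 D.hα0
  have hga : g D.a = D.a := D.fix_a hg
  have hgι : ∀ e, g (D.ι e) = D.ι (σ e) := D.act (D.fix_κ hg) (by rw [hgα, D.hα, map_mul]; rfl)
  -- elements of `LE` are fixed by the kernel
  have hker : ∀ b ∈ D.LE, ∀ g' ∈ D.L.fixingSubgroup, g' (D.ι D.α) = D.ι D.α → g' b = b := by
    rintro b ⟨x, y, rfl⟩ g' hg' hg'α
    have h1 : ∀ e, g' (D.ι e) = D.ι e := by
      intro e
      exact D.act (s := 1) (D.fix_κ hg') hg'α e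
    rw [map_add, map_mul, h1, h1, D.fix_a hg']
  obtain ⟨t, z, C, ht, hC, heq, hsmall⟩ := h
  obtain ⟨b, hb⟩ := Ev.of_comm (ι := D.ι) (a := D.a) D.bc_ell.ns
    (M := (t : Matrix (Fin 2) (Fin 2) E)) (congrArg Units.val ht).symm
  obtain ⟨c, hc⟩ := Ev.of_comm (ι := D.κ) (a := D.a) D.ell.ns
    (M := (C : Matrix (Fin 2) (Fin 2) k)) (congrArg Units.val hC).symm
  have hbne : b ≠ 0 := hb.ne_zero D.bc_ell D.ha' t.ne_zero
  have hcne : c ≠ 0 := hc.ne_zero D.ell D.ha C.ne_zero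
  have hnm := D.ev_nm hgι hga hb
  -- the equation for `a`
  have hz : Ev D.ι (bc (E := E) γ : Matrix (Fin 2) (Fin 2) E) D.a
      (sc (bu z) : GL (Fin 2) E) (D.κ z) := by
    rw [coe_sc, bu_coe]
    exact Ev.smul_one _
  have e1 : D.a = D.κ z * (b * g b * g (g b)) * c := by
    have h2 := (hz.mul D.ha' hnm).mul D.ha' (D.ev_bc hc)
    rw [← Units.val_mul, ← Units.val_mul, ← heq] at h2
    exact Ev.self.unique D.bc_ell.ns h2
  -- the equation for the determinant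
  set n' : Om := D.ι (t : Matrix (Fin 2) (Fin 2) E).det with hn'
  have hn'ne : n' ≠ 0 := (map_ne_zero _).2 (isUnit_det' t)
  have e2 : D.κ (γ : Matrix (Fin 2) (Fin 2) k).det =
      D.κ z * D.κ z * (n' * g n' * g (g n')) * D.κ (C : Matrix (Fin 2) (Fin 2) k).det := by
    have h3 := congrArg (fun M : GL (Fin 2) E => D.ι (M : Matrix (Fin 2) (Fin 2) E).det) heq
    simp only [Units.val_mul, Matrix.det_mul, coe_bc, det_map', coe_sc, bu_coe, nm, coe_sg] at h3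
    have hσ : ∀ M : Matrix (Fin 2) (Fin 2) E, (M.map σ).det = σ M.det := fun M =>
      det_map' (σ : E →+* E) M
    simp only [hσ, map_mul, Matrix.det_smul, Fintype.card_fin, Matrix.det_one, mul_one,
      map_pow] at h3
    rw [hn', hgι, hgι]
    change D.ι (algebraMap k E _) = D.ι (algebraMap k E _) * D.ι (algebraMap k E _) * _ *
      D.ι (algebraMap k E _)
    rw [h3]
    ring
  have hdetγ : D.κ (γ : Matrix (Fin 2) (Fin 2) k).det ≠ 0 := (map_ne_zero _).2 (isUnit_det' γ)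
  have hdetC : D.κ (C : Matrix (Fin 2) (Fin 2) k).det ≠ 0 := (map_ne_zero _).2 (isUnit_det' C)
  have hzne : D.κ (z : k) ≠ 0 := (map_ne_zero _).2 z.ne_zero
  have hcL : c ∈ D.L := by
    obtain ⟨x, y, -, rfl⟩ := hc
    exact ⟨x, y, rfl⟩
  -- the two norms are in `L`
  have hN1L : n' * g n' * g (g n') ∈ D.L := by
    have : n' * g n' * g (g n') = D.κ (γ : Matrix (Fin 2) (Fin 2) k).det /
        (D.κ z * D.κ z * D.κ (C : Matrix (Fin 2) (Fin 2) k).det) := by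
      rw [e2]; field_simp
    rw [this]
    exact div_mem (D.κ_mem _) (mul_mem (mul_mem (D.κ_mem _) (D.κ_mem _)) (D.κ_mem _))
  have hN2L : b * g b * g (g b) ∈ D.L := by
    have : b * g b * g (g b) = D.a / (D.κ z * c) := by
      rw [eq_div_iff (mul_ne_zero hzne hcne)]
      linear_combination -e1
    rw [this]
    exact div_mem D.a_mem (mul_mem (D.κ_mem _) hcL)
  have hN1ne : n' * g n' * g (g n') ≠ 0 := by
    refine mul_ne_zero (mul_ne_zero hn'ne ?_) ?_ <;> simpa using hn'ne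
  have hN2ne : b * g b * g (g b) ≠ 0 := by
    refine mul_ne_zero (mul_ne_zero hbne ?_) ?_ <;> simpa using hbne
  let zL : D.Lˣ := Units.mk0 ⟨D.κ z, D.κ_mem _⟩ (fun h => hzne (congrArg Subtype.val h))
  let N1 : D.Lˣ := Units.mk0 ⟨_, hN1L⟩ (fun h => hN1ne (congrArg Subtype.val h))
  let N2 : D.Lˣ := Units.mk0 ⟨_, hN2L⟩ (fun h => hN2ne (congrArg Subtype.val h))
  have hcc : D.κ (C : Matrix (Fin 2) (Fin 2) k).det * c ∈ D.L := mul_mem (D.κ_mem _) hcL
  let cL : D.Lˣ := Units.mk0 ⟨_, hcc⟩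
    (fun h => (mul_ne_zero hdetC hcne) (congrArg Subtype.val h))
  have hx : xL = zL * zL * zL * N1 * N2 * cL := by
    apply Units.ext
    apply Subtype.ext
    rw [hxL]
    change _ = D.κ z * D.κ z * D.κ z * (n' * g n' * g (g n')) * (b * g b * g (g b)) *
      (D.κ (C : Matrix (Fin 2) (Fin 2) k).det * c)
    rw [e2]
    conv_lhs => rw [e1]
    ring
  rw [hx, kp_mul', kp_mul', kp_mul', kp_cube, zero_add, map_add, map_add]
  rw [sv_norm D.hζ' (D.κ_mem D.ζ) hα0 hδL hg hgα (b := n')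
      (hker n' ⟨(t : Matrix (Fin 2) (Fin 2) E).det, 0, by rw [hn']; simp⟩) rfl v,
    sv_norm D.hζ' (D.κ_mem D.ζ) hα0 hδL hg hgα (b := b)
      (hker b (by obtain ⟨x, y, -, rfl⟩ := hb; exact ⟨x, y, rfl⟩)) rfl v, zero_add, zero_add]
  apply sv_cube_right
  apply exists_cube D.hζ' (D.κ_mem D.ζ) _ hcc
  -- `det C * c` is close to one
  have h27 : (27 : Om) ≠ 0 := by norm_num
  have hc27 : (c - 1) / 27 ∈ (Av v).nonunits := D.near_eig v (hc.sub Ev.one) hsmall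
  have hent : ∀ i j, D.κ (((C : Matrix (Fin 2) (Fin 2) k) - 1) i j / 27) ∈ (Av v).nonunits := by
    intro i j
    apply mem_nonunits_of_val_lt (hℓ := lv_prime v) (hA := Av_lies v)
    rw [map_div₀, div_lt_one₀ (zero_lt_iff.2 ((Valuation.ne_zero_iff _).2 (by norm_num)))]
    exact hsmall i j
  have h27mem : ∀ x ∈ (Av v).nonunits, 27 * x ∈ (Av v).nonunits := by
    intro x hx
    have := (Av v).nonunits.nsmul_mem hx 27
    rwa [nsmul_eq_mul] at this
  have hd27 : (D.κ (C : Matrix (Fin 2) (Fin 2) k).det - 1) / 27 ∈ (Av v).nonunits := by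
    set B := (C : Matrix (Fin 2) (Fin 2) k) - 1 with hB
    have hC' : (C : Matrix (Fin 2) (Fin 2) k) = B + 1 := by rw [hB]; abel
    have : (D.κ (C : Matrix (Fin 2) (Fin 2) k).det - 1) / 27 =
        D.κ (B 0 0 / 27) + D.κ (B 1 1 / 27) +
          27 * (D.κ (B 0 0 / 27) * D.κ (B 1 1 / 27) - D.κ (B 0 1 / 27) * D.κ (B 1 0 / 27)) := by
      rw [hC', Matrix.det_fin_two]
      simp only [Matrix.add_apply, Matrix.one_apply_eq, Matrix.one_apply, Fin.isValue,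
        map_sub, map_mul, map_add, map_div₀, map_ofNat, map_one]
      simp
      field_simp
      ring
    rw [this]
    exact (Av v).nonunits.add_mem ((Av v).nonunits.add_mem (hent 0 0) (hent 1 1))
      (h27mem _ ((Av v).nonunits.sub_mem ((Av v).nonunits.mul_mem (hent 0 0) (hent 1 1))
      ((Av v).nonunits.mul_mem (hent 0 1) (hent 1 0))))
  have : (D.κ (C : Matrix (Fin 2) (Fin 2) k).det * c - 1) / 27 =
      (D.κ (C : Matrix (Fin 2) (Fin 2) k).det - 1) / 27 + (c - 1) / 27 +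
        27 * ((D.κ (C : Matrix (Fin 2) (Fin 2) k).det - 1) / 27 * ((c - 1) / 27)) := by
    field_simp
    ring
  rw [this]
  exact (Av v).nonunits.add_mem ((Av v).nonunits.add_mem hd27 hc27)
    (h27mem _ ((Av v).nonunits.mul_mem hd27 hc27))

include D in
/-- **Global norm theorem**, in terms of auxiliary data -/
theorem exists_norm (hloc : ∀ v : HeightOneSpectrum (𝓞 k), LocSplit σ v ∨ LocNear σ v γ) :
    ∃ t : GL (Fin 2) E, nm σ t = bc (sc (GeneralLinearGroup.det γ) * γ) := by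
  obtain ⟨δ, hδ⟩ := D.exists_δ
  have hα0 : D.ι D.α ≠ 0 := (map_ne_zero _).2 D.hα0
  have hδ0 : D.κ δ ≠ 0 := by
    rw [D.κ_apply, hδ, map_pow]
    exact pow_ne_zero 3 hα0
  have hane : D.a ≠ 0 := Ev.ne_zero (ι := D.κ) D.ell D.ha Ev.self γ.ne_zero
  have hdetγ : D.κ (γ : Matrix (Fin 2) (Fin 2) k).det ≠ 0 := (map_ne_zero _).2 (isUnit_det' γ)
  have hxmem : D.κ (γ : Matrix (Fin 2) (Fin 2) k).det * D.a ∈ D.L := mul_mem (D.κ_mem _) D.a_mem
  let δL : D.Lˣ := Units.mk0 ⟨D.κ δ, D.κ_mem _⟩ (fun h => hδ0 (congrArg Subtype.val h))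
  let xL : D.Lˣ := Units.mk0 ⟨_, hxmem⟩ (fun h => mul_ne_zero hdetγ hane (congrArg Subtype.val h))
  have hδL : D.ι D.α ^ 3 = ((δL : D.L) : Om) := by
    change _ = D.κ δ
    rw [D.κ_apply, hδ, map_pow]
  have hxL : ((xL : D.L) : Om) = D.κ (γ : Matrix (Fin 2) (Fin 2) k).det * D.a := rfl
  obtain ⟨g0, hg0, hg0α⟩ := exists_gen D.hζ' (D.κ_mem D.ζ) hα0 D.α_notMem hδL
  have hsv : ∀ v : HeightOneSpectrum (𝓞 D.L), sv D.hζ' (D.κ_mem D.ζ) v
      (kp 3 D.L (Additive.ofMul δL)) (kp 3 D.L (Additive.ofMul xL)) = 0 := by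
    intro v
    rcases hloc (pl D.κ (lv_prime v) (Av_lies v)) with h | h
    · exact sv_cube_left D.hζ' (D.κ_mem D.ζ) v
        ⟨D.ι D.α, hδL, fun u hu => D.split_case v h hu⟩
    · exact D.sv_near hδL hxL hg0 hg0α v h
  obtain ⟨g, b, hg, hgα, hfix, hN⟩ := norm_of_sv D.hζ' (D.κ_mem D.ζ) hα0 D.α_notMem hδL hsv
  have hga : g D.a = D.a := D.fix_a hg
  have hgι : ∀ e, g (D.ι e) = D.ι (σ e) := D.act (D.fix_κ hg) (by rw [hgα, D.hα, map_mul]; rfl)
  have hbLE : b ∈ D.LE := by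
    rw [mem_iff_fixed]
    intro u
    have huE : ∀ e : E, (u : Om ≃ₐ[ℚ] Om) (D.ι e) = D.ι e := fun e =>
      (IntermediateField.mem_fixingSubgroup_iff _ _).1 u.2 _ ⟨e, 0, by simp⟩
    have hua : (u : Om ≃ₐ[ℚ] Om) D.a = D.a :=
      (IntermediateField.mem_fixingSubgroup_iff _ _).1 u.2 _ ⟨0, 1, by simp⟩
    refine hfix u ?_ (huE _)
    rw [IntermediateField.mem_fixingSubgroup_iff]
    rintro _ ⟨x, y, rfl⟩
    rw [map_add, map_mul, hua]
    change (u : Om ≃ₐ[ℚ] Om) (D.ι _) + (u : Om ≃ₐ[ℚ] Om) (D.ι _) * D.a = D.ι _ + D.ι _ * D.a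
    rw [huE, huE]
  obtain ⟨x, y, hb⟩ := hbLE
  have hev : Ev D.ι (bc (E := E) γ : Matrix (Fin 2) (Fin 2) E) D.a
      (x • (1 : Matrix (Fin 2) (Fin 2) E) + y • (bc (E := E) γ : Matrix (Fin 2) (Fin 2) E)) b :=
    ⟨x, y, rfl, hb⟩
  have hb0 : b ≠ 0 := by
    rintro rfl
    rw [zero_mul, zero_mul] at hN
    exact xL.ne_zero (Subtype.ext hN.symm)
  let t : GL (Fin 2) E := GeneralLinearGroup.mkOfDetNeZero _ (hev.det_ne D.bc_ell hb0)
  refine ⟨t, Units.ext ?_⟩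
  have h1 := D.ev_nm hgι hga (t := t) (b := b) hev
  rw [hN, hxL] at h1
  have h2 : Ev D.ι (bc (E := E) γ : Matrix (Fin 2) (Fin 2) E) D.a
      (bc (E := E) (sc (GeneralLinearGroup.det γ) * γ) : Matrix (Fin 2) (Fin 2) E)
      (D.κ (γ : Matrix (Fin 2) (Fin 2) k).det * D.a) := by
    rw [map_mul, bc_sc, Units.val_mul, coe_sc]
    exact (Ev.smul_one _).mul D.ha' Ev.self
  exact h1.inj D.bc_ell D.ha' h2

end Dat

/-- **Global norm theorem**: if `γ` is, at every place of `k`, split or close to a norm up to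
the centre, then `det γ · γ` is a norm from `E[γ]ˣ`. -/
theorem exists_norm {σ : E ≃ₐ[k] E} (h : Cyc3 σ) {ζ : k} (hζ : IsPrimitiveRoot ζ 3)
    {γ : GL (Fin 2) k} (hγ : Ell (γ : Matrix (Fin 2) (Fin 2) k))
    (hloc : ∀ v : HeightOneSpectrum (𝓞 k), LocSplit σ v ∨ LocNear σ v γ) :
    ∃ t : GL (Fin 2) E, nm σ t = bc (sc (GeneralLinearGroup.det γ) * γ) := by
  obtain ⟨D⟩ := Dat.exists_dat h hγ hζ
  exact D.exists_norm hloc

end Fermat.Agent.LT.Tw
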